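import Mathlib

/-!
# Ultrafilter limits in adically complete modules with finite quotients (helper607, row S59)

For a commutative ring `A`, an ideal `I` and an `A`-module `V` which is `I`-adically complete
and whose quotients `V / I^K V` are all finite, every sequence in `V` has a unique limit along
any ultrafilter on `ℕ`.  This replaces the diagonal/pigeonhole argument in Taylor–Wiles patching.
-/

set_option autoImplicit false

namespace Fermat.Agent.S59.H607

open Filter

/-- Along an ultrafilter, a map into a finite type is eventually constant. -/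
theorem exists_eventually_eq_of_finite {α : Type*} [Finite α] (𝒰 : Ultrafilter ℕ) (f : ℕ → α) :
    ∃ c, ∀ᶠ n in 𝒰, f n = c := by
  by_contra h
  have h' : ∀ c, ∀ᶠ n in (𝒰 : Filter ℕ), f n ≠ c := fun c =>
    Ultrafilter.eventually_not.mpr (fun hc => h ⟨c, hc⟩)
  have h2 : ∀ᶠ n in (𝒰 : Filter ℕ), ∀ c, f n ≠ c := Filter.eventually_all.mpr h'
  obtain ⟨n, hn⟩ := h2.exists
  exact hn (f n) rfl

section Module

variable {A : Type*} [CommRing A] (I : Ideal A) {V : Type*} [AddCommGroup V] [Module A V]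
  (𝒰 : Ultrafilter ℕ)

/-- `L` is the limit of the sequence `a` along the ultrafilter `𝒰`, for the `I`-adic topology. -/
def IsUlim (a : ℕ → V) (L : V) : Prop :=
  ∀ K : ℕ, ∀ᶠ n in (𝒰 : Filter ℕ), a n - L ∈ (I ^ K • ⊤ : Submodule A V)

variable {I 𝒰}

theorem IsUlim.unique [IsHausdorff I V] {a : ℕ → V} {L L' : V} (h : IsUlim I 𝒰 a L)
    (h' : IsUlim I 𝒰 a L') : L = L' := by
  rw [← sub_eq_zero]
  refine IsHausdorff.haus ‹_› _ fun K => ?_
  rw [SModEq.zero]
  obtain ⟨n, h1, h2⟩ := ((h K).and (h' K)).exists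
  have : L - L' = (a n - L') - (a n - L) := by abel
  rw [this]
  exact Submodule.sub_mem _ h2 h1

theorem IsUlim.const (v : V) : IsUlim I 𝒰 (fun _ => v) v := fun K =>
  Filter.Eventually.of_forall fun _ => by simp

theorem IsUlim.add {a b : ℕ → V} {L L' : V} (h : IsUlim I 𝒰 a L) (h' : IsUlim I 𝒰 b L') :
    IsUlim I 𝒰 (fun n => a n + b n) (L + L') := fun K => by
  filter_upwards [h K, h' K] with n h1 h2
  have : a n + b n - (L + L') = (a n - L) + (b n - L') := by abel
  rw [this]
  exact Submodule.add_mem _ h1 h2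

theorem IsUlim.neg {a : ℕ → V} {L : V} (h : IsUlim I 𝒰 a L) :
    IsUlim I 𝒰 (fun n => - a n) (- L) := fun K => by
  filter_upwards [h K] with n h1
  have : - a n - - L = - (a n - L) := by abel
  rw [this]
  exact Submodule.neg_mem _ h1

theorem IsUlim.sub {a b : ℕ → V} {L L' : V} (h : IsUlim I 𝒰 a L) (h' : IsUlim I 𝒰 b L') :
    IsUlim I 𝒰 (fun n => a n - b n) (L - L') := by
  simpa [sub_eq_add_neg] using h.add h'.neg

theorem IsUlim.smul {a : ℕ → V} {L : V} (c : A) (h : IsUlim I 𝒰 a L) :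
    IsUlim I 𝒰 (fun n => c • a n) (c • L) := fun K => by
  filter_upwards [h K] with n h1
  rw [← smul_sub]
  exact Submodule.smul_mem _ _ h1

/-- Two sequences which are eventually congruent modulo every `I^K V` have the same limit. -/
theorem IsUlim.congr' {a b : ℕ → V} {L : V} (h : IsUlim I 𝒰 a L)
    (hab : ∀ K : ℕ, ∀ᶠ n in (𝒰 : Filter ℕ), b n - a n ∈ (I ^ K • ⊤ : Submodule A V)) :
    IsUlim I 𝒰 b L := fun K => by
  filter_upwards [h K, hab K] with n h1 h2
  have : b n - L = (b n - a n) + (a n - L) := by abel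
  rw [this]
  exact Submodule.add_mem _ h2 h1

theorem IsUlim.congr {a b : ℕ → V} {L : V} (h : IsUlim I 𝒰 a L)
    (hab : ∀ᶠ n in (𝒰 : Filter ℕ), b n = a n) : IsUlim I 𝒰 b L :=
  h.congr' fun K => by
    filter_upwards [hab] with n hn
    rw [hn, sub_self]
    exact Submodule.zero_mem _

/-- If the sequence eventually lies in `L' + I^K V` for every `K`, the limit is `L'`. -/
theorem isUlim_of_eventually {a : ℕ → V} {L : V}
    (h : ∀ K : ℕ, ∀ᶠ n in (𝒰 : Filter ℕ), a n - L ∈ (I ^ K • ⊤ : Submodule A V)) :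
    IsUlim I 𝒰 a L := h

variable (I 𝒰)

/-- Existence of ultrafilter limits. -/
theorem exists_isUlim [IsPrecomplete I V]
    (hfin : ∀ K : ℕ, Finite (V ⧸ (I ^ K • ⊤ : Submodule A V))) (a : ℕ → V) :
    ∃ L, IsUlim I 𝒰 a L := by
  have h1 : ∀ K : ℕ, ∃ v : V, ∀ᶠ n in (𝒰 : Filter ℕ),
      a n - v ∈ (I ^ K • ⊤ : Submodule A V) := by
    intro K
    have := hfin K
    obtain ⟨c, hc⟩ := exists_eventually_eq_of_finite 𝒰
      (fun n => Submodule.Quotient.mk (p := (I ^ K • ⊤ : Submodule A V)) (a n))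
    obtain ⟨v, rfl⟩ := Submodule.Quotient.mk_surjective _ c
    refine ⟨v, ?_⟩
    filter_upwards [hc] with n hn
    exact (Submodule.Quotient.eq _).mp hn
  choose v hv using h1
  have hcompat : ∀ {m n : ℕ}, m ≤ n → v m ≡ v n [SMOD (I ^ m • ⊤ : Submodule A V)] := by
    intro m n hmn
    rw [SModEq.sub_mem]
    obtain ⟨k, hk1, hk2⟩ := ((hv m).and (hv n)).exists
    have h3 : a k - v n ∈ (I ^ m • ⊤ : Submodule A V) :=
      Submodule.smul_mono_left (Ideal.pow_le_pow_right hmn) hk2
    have : v m - v n = (a k - v n) - (a k - v m) := by abel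
    rw [this]
    exact Submodule.sub_mem _ h3 hk1
  obtain ⟨L, hL⟩ := IsPrecomplete.prec ‹_› hcompat
  refine ⟨L, fun K => ?_⟩
  filter_upwards [hv K] with n hn
  have h4 : v K - L ∈ (I ^ K • ⊤ : Submodule A V) := by
    rw [← SModEq.sub_mem]
    exact hL K
  have : a n - L = (a n - v K) + (v K - L) := by abel
  rw [this]
  exact Submodule.add_mem _ hn h4

/-- The standing hypotheses for ultrafilter limits: `I`-adically complete with finite quotients. -/
structure IsProfiniteAdic : Prop where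
  haus : IsHausdorff I V
  prec : IsPrecomplete I V
  fin : ∀ K : ℕ, Finite (V ⧸ (I ^ K • ⊤ : Submodule A V))

variable {I}

/-- The ultrafilter limit of a sequence. -/
noncomputable def ulim (h : IsProfiniteAdic I (V := V)) (a : ℕ → V) : V :=
  haveI := h.prec
  Classical.choose (exists_isUlim I 𝒰 h.fin a)

theorem isUlim_ulim (h : IsProfiniteAdic I (V := V)) (a : ℕ → V) :
    IsUlim I 𝒰 a (ulim 𝒰 h a) :=
  haveI := h.prec
  Classical.choose_spec (exists_isUlim I 𝒰 h.fin a)

variable {𝒰}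

theorem ulim_eq (h : IsProfiniteAdic I (V := V)) {a : ℕ → V} {L : V} (hL : IsUlim I 𝒰 a L) :
    ulim 𝒰 h a = L :=
  haveI := h.haus
  (isUlim_ulim 𝒰 h a).unique hL

theorem ulim_sub_mem (h : IsProfiniteAdic I (V := V)) (a : ℕ → V) (K : ℕ) :
    ∀ᶠ n in (𝒰 : Filter ℕ), a n - ulim 𝒰 h a ∈ (I ^ K • ⊤ : Submodule A V) :=
  isUlim_ulim 𝒰 h a K

end Module

section Algebra

variable {A : Type*} [CommRing A] {I : Ideal A} {B : Type*} [CommRing B] [Algebra A B]
  {𝒰 : Ultrafilter ℕ}

theorem mul_mem_smul_top {J : Ideal A} {x : B} (hx : x ∈ (J • ⊤ : Submodule A B)) (y : B) :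
    x * y ∈ (J • ⊤ : Submodule A B) := by
  refine Submodule.smul_induction_on hx (fun a ha b _ => ?_) (fun u v hu hv => ?_)
  · rw [smul_mul_assoc]
    exact Submodule.smul_mem_smul ha Submodule.mem_top
  · rw [add_mul]
    exact Submodule.add_mem _ hu hv

theorem IsUlim.mul {a b : ℕ → B} {L L' : B} (h : IsUlim I 𝒰 a L) (h' : IsUlim I 𝒰 b L') :
    IsUlim I 𝒰 (fun n => a n * b n) (L * L') := fun K => by
  filter_upwards [h K, h' K] with n h1 h2
  have : a n * b n - L * L' = (a n - L) * b n + (b n - L') * L := by ring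
  rw [this]
  exact Submodule.add_mem _ (mul_mem_smul_top h1 _) (mul_mem_smul_top h2 _)

end Algebra

end Fermat.Agent.S59.H607
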