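import Mathlib
import Fermat.Agent.S53.H596.PowerSeriesCNL
import Fermat.Prelude.Thm_IsAdicComplete_of_module_finite
import Fermat.Agent.S57.RegSeq
import Fermat.Agent.S59.H607.Ulim

/-!
# Power series rings over a complete local ring with finite residue field (helper607, row S59)

`P = 𝒪⟦X₁,…,X_r⟧` is a "profinite" adic ring: complete for its maximal ideal with finite
quotients `P / 𝔪^K`; the same holds for every finite `P`-module.  Also: the relation ideals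
`((1 + X_j)^(ℓ^n) - 1)_j` of Taylor–Wiles patching tend to zero.
-/

set_option autoImplicit false

namespace Fermat.Agent.S59.H607

open IsLocalRing MvPowerSeries

/-- `(1 + u)^(ℓ^n) ≡ 1` modulo `𝔪^(n+1)` when `ℓ, u ∈ 𝔪`. -/
theorem one_add_pow_sub_one_mem {B : Type*} [CommRing B] (𝔪 : Ideal B) {ℓ : ℕ}
    (hℓ : (ℓ : B) ∈ 𝔪) {u : B} (hu : u ∈ 𝔪) (n : ℕ) :
    (1 + u) ^ (ℓ ^ n) - 1 ∈ 𝔪 ^ (n + 1) := by
  induction n with
  | zero => simpa using hu
  | succ n ih =>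
    set x : B := (1 + u) ^ (ℓ ^ n) with hx
    have h1 : (1 + u) ^ (ℓ ^ (n + 1)) - 1 = (x - 1) * ∑ i ∈ Finset.range ℓ, x ^ i := by
      rw [mul_geom_sum, hx, ← pow_mul, ← pow_succ]
    have hx1 : x - 1 ∈ 𝔪 := Ideal.pow_le_self (Nat.succ_ne_zero n) ih
    have h2 : ∑ i ∈ Finset.range ℓ, x ^ i ∈ 𝔪 := by
      rw [← Ideal.Quotient.eq_zero_iff_mem, map_sum]
      have hxq : Ideal.Quotient.mk 𝔪 x = 1 := by
        rw [← sub_eq_zero, ← map_one (Ideal.Quotient.mk 𝔪), ← map_sub]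
        exact Ideal.Quotient.eq_zero_iff_mem.mpr hx1
      simp only [map_pow, hxq, one_pow, Finset.sum_const, Finset.card_range, nsmul_eq_mul, mul_one]
      rw [← map_natCast (Ideal.Quotient.mk 𝔪)]
      exact Ideal.Quotient.eq_zero_iff_mem.mpr hℓ
    rw [h1, pow_succ]
    exact Ideal.mul_mem_mul ih h2

section PowerSeries

variable {𝒪 : Type*} [CommRing 𝒪] [IsLocalRing 𝒪] {r : ℕ}

/-- The Taylor–Wiles relation ideal of level `n`. -/
noncomputable def twIdeal (𝒪 : Type*) [CommRing 𝒪] (ℓ r n : ℕ) : Ideal (MvPowerSeries (Fin r) 𝒪) :=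
  Ideal.span (Set.range fun j : Fin r =>
    ((1 + MvPowerSeries.X j) ^ (ℓ ^ n) - 1 : MvPowerSeries (Fin r) 𝒪))

theorem natCast_mem_maximalIdeal_mvPowerSeries {ℓ : ℕ} (hℓ : (ℓ : 𝒪) ∈ maximalIdeal 𝒪) :
    ((ℓ : ℕ) : MvPowerSeries (Fin r) 𝒪) ∈ maximalIdeal (MvPowerSeries (Fin r) 𝒪) := by
  rw [Fermat.Agent.S57.mem_maximalIdeal_iff_constantCoeff, map_natCast]
  exact hℓ

theorem twIdeal_le {ℓ : ℕ} (hℓ : (ℓ : 𝒪) ∈ maximalIdeal 𝒪) (n : ℕ) :
    twIdeal 𝒪 ℓ r n ≤ maximalIdeal (MvPowerSeries (Fin r) 𝒪) ^ (n + 1) := by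
  unfold twIdeal
  rw [Ideal.span_le]
  rintro _ ⟨j, rfl⟩
  exact one_add_pow_sub_one_mem _ (natCast_mem_maximalIdeal_mvPowerSeries hℓ)
    (Fermat.Agent.S53.H596.X_mem_maximalIdeal_mvPowerSeries j) n

omit [IsLocalRing 𝒪] in
theorem constantCoeff_eq_zero_of_mem_twIdeal {ℓ n : ℕ} {f : MvPowerSeries (Fin r) 𝒪}
    (hf : f ∈ twIdeal 𝒪 ℓ r n) : constantCoeff f = 0 := by
  have hle : twIdeal 𝒪 ℓ r n ≤ RingHom.ker (constantCoeff (σ := Fin r) (R := 𝒪)) := by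
    unfold twIdeal
    rw [Ideal.span_le]
    rintro _ ⟨j, rfl⟩
    simp [RingHom.mem_ker]
  exact hle hf

omit [IsLocalRing 𝒪] in
/-- A power series without constant term is a combination of the variables. -/
theorem exists_eq_sum_X_mul {f : MvPowerSeries (Fin r) 𝒪} (hf : constantCoeff f = 0) :
    ∃ g : Fin r → MvPowerSeries (Fin r) 𝒪, f = ∑ i, g i * X i := by
  have h1 : f ∈ Fermat.Agent.S57.vanishIdeal (A := 𝒪) (Set.univ : Set (Fin r)) :=
    (Fermat.Agent.S57.mem_vanishIdeal_univ_iff 𝒪).mpr hf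
  rw [Fermat.Agent.S57.vanishIdeal_eq_span_of_finite Set.finite_univ, Set.image_univ] at h1
  obtain ⟨g, hg⟩ := (Ideal.mem_span_range_iff_exists_fun).mp h1
  exact ⟨g, hg.symm⟩

theorem C_mem_maximalIdeal_pow {K : ℕ} {a : 𝒪} (ha : a ∈ maximalIdeal 𝒪 ^ K) :
    (C a : MvPowerSeries (Fin r) 𝒪) ∈ maximalIdeal (MvPowerSeries (Fin r) 𝒪) ^ K := by
  have h1 : Ideal.map (C (σ := Fin r) (R := 𝒪)) (maximalIdeal 𝒪) ≤
      maximalIdeal (MvPowerSeries (Fin r) 𝒪) := by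
    rw [Ideal.map_le_iff_le_comap]
    intro x hx
    exact Fermat.Agent.S53.H596.C_mem_maximalIdeal_mvPowerSeries hx
  have h2 : Ideal.map (C (σ := Fin r) (R := 𝒪)) (maximalIdeal 𝒪 ^ K) ≤
      maximalIdeal (MvPowerSeries (Fin r) 𝒪) ^ K := by
    rw [Ideal.map_pow]
    exact Ideal.pow_right_mono h1 K
  exact h2 (Ideal.mem_map_of_mem _ ha)

theorem constantCoeff_mem_maximalIdeal_pow {K : ℕ} {f : MvPowerSeries (Fin r) 𝒪}
    (hf : f ∈ maximalIdeal (MvPowerSeries (Fin r) 𝒪) ^ K) :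
    constantCoeff f ∈ maximalIdeal 𝒪 ^ K := by
  have h1 : Ideal.map (constantCoeff (σ := Fin r) (R := 𝒪))
      (maximalIdeal (MvPowerSeries (Fin r) 𝒪)) ≤ maximalIdeal 𝒪 := by
    rw [Ideal.map_le_iff_le_comap]
    intro x hx
    exact (Fermat.Agent.S57.mem_maximalIdeal_iff_constantCoeff 𝒪).mp hx
  have h2 : Ideal.map (constantCoeff (σ := Fin r) (R := 𝒪))
      (maximalIdeal (MvPowerSeries (Fin r) 𝒪) ^ K) ≤ maximalIdeal 𝒪 ^ K := by
    rw [Ideal.map_pow]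
    exact Ideal.pow_right_mono h1 K
  exact h2 (Ideal.mem_map_of_mem _ hf)

variable [IsNoetherianRing 𝒪] [Finite (ResidueField 𝒪)]

omit [IsNoetherianRing 𝒪] in
theorem finite_quotient_maximalIdeal_mvPowerSeries :
    Finite (MvPowerSeries (Fin r) 𝒪 ⧸ maximalIdeal (MvPowerSeries (Fin r) 𝒪)) := by
  haveI : IsLocalHom (algebraMap 𝒪 (MvPowerSeries (Fin r) 𝒪)) :=
    Fermat.Agent.S53.H596.isLocalHom_algebraMap_mvPowerSeries
  have hs : Function.Surjective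
      (ResidueField.map (algebraMap 𝒪 (MvPowerSeries (Fin r) 𝒪))) := by
    intro y
    obtain ⟨a, ha⟩ := Fermat.Agent.S53.H596.residue_surjective_mvPowerSeries (σ := Fin r) (R := 𝒪) y
    exact ⟨residue 𝒪 a, by rw [ResidueField.map_residue]; exact ha⟩
  exact Finite.of_surjective _ hs

theorem finite_quotient_maximalIdeal_pow_mvPowerSeries (K : ℕ) :
    Finite (MvPowerSeries (Fin r) 𝒪 ⧸ maximalIdeal (MvPowerSeries (Fin r) 𝒪) ^ K) := by
  haveI := finite_quotient_maximalIdeal_mvPowerSeries (𝒪 := 𝒪) (r := r)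
  exact Ideal.finite_quotient_pow (IsNoetherian.noetherian _) K

variable [IsAdicComplete (maximalIdeal 𝒪) 𝒪]

/-- Finite modules over `P = 𝒪⟦X₁,…,X_r⟧` are profinite for the `𝔪_P`-adic topology. -/
theorem isProfiniteAdic_of_finite (V : Type*) [AddCommGroup V]
    [Module (MvPowerSeries (Fin r) 𝒪) V] [Module.Finite (MvPowerSeries (Fin r) 𝒪) V] :
    IsProfiniteAdic (maximalIdeal (MvPowerSeries (Fin r) 𝒪)) (V := V) := by
  haveI : IsAdicComplete (maximalIdeal (MvPowerSeries (Fin r) 𝒪)) (MvPowerSeries (Fin r) 𝒪) :=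
    Fermat.Agent.S53.H596.isAdicComplete_mvPowerSeries
  haveI : IsAdicComplete (maximalIdeal (MvPowerSeries (Fin r) 𝒪)) V :=
    IsAdicComplete.of_module_finite _ V
  refine ⟨inferInstance, inferInstance, fun K => ?_⟩
  haveI := finite_quotient_maximalIdeal_pow_mvPowerSeries (𝒪 := 𝒪) (r := r) K
  haveI : Module.Finite
      (MvPowerSeries (Fin r) 𝒪 ⧸ maximalIdeal (MvPowerSeries (Fin r) 𝒪) ^ K)
      (V ⧸ (maximalIdeal (MvPowerSeries (Fin r) 𝒪) ^ K • ⊤ :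
        Submodule (MvPowerSeries (Fin r) 𝒪) V)) :=
    Module.Finite.of_restrictScalars_finite (MvPowerSeries (Fin r) 𝒪) _ _
  exact Module.finite_of_finite
    (MvPowerSeries (Fin r) 𝒪 ⧸ maximalIdeal (MvPowerSeries (Fin r) 𝒪) ^ K)

theorem isProfiniteAdic_mvPowerSeries :
    IsProfiniteAdic (maximalIdeal (MvPowerSeries (Fin r) 𝒪))
      (V := MvPowerSeries (Fin r) 𝒪) :=
  isProfiniteAdic_of_finite (MvPowerSeries (Fin r) 𝒪)

end PowerSeries

end Fermat.Agent.S59.H607
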