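import Mathlib

/-!
# A uniform nilpotence bound from Nakayama's lemma (helper607, row S59)

If `V` is a finite module (finite as a set) over a local ring `A`, then `𝔪 ^ e` kills `V` as soon
as `Nat.card V ≤ e`.
-/

set_option autoImplicit false

namespace Fermat.Agent.S59.H607

open IsLocalRing

theorem maximalIdeal_pow_smul_top_eq_bot {A : Type*} [CommRing A] [IsLocalRing A] {V : Type*}
    [AddCommGroup V] [Module A V] [Finite V] {e : ℕ} (he : Nat.card V ≤ e) :
    (maximalIdeal A ^ e • ⊤ : Submodule A V) = ⊥ := by
  have key : ∀ i : ℕ, (maximalIdeal A ^ i • ⊤ : Submodule A V) = ⊥ ∨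
      ((maximalIdeal A ^ i • ⊤ : Submodule A V) : Set V).ncard + i ≤ Nat.card V := by
    intro i
    induction i with
    | zero =>
      right
      rw [add_zero]
      exact Set.ncard_le_card _
    | succ i ih =>
      have hstep : (maximalIdeal A ^ (i + 1) • ⊤ : Submodule A V) =
          maximalIdeal A • (maximalIdeal A ^ i • ⊤ : Submodule A V) := by
        rw [pow_succ', Submodule.mul_smul]
      rcases ih with h0 | hcard
      · left
        rw [hstep, h0, Submodule.smul_bot]
      · by_cases hbot : (maximalIdeal A ^ i • ⊤ : Submodule A V) = ⊥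
        · left
          rw [hstep, hbot, Submodule.smul_bot]
        · right
          have hle : (maximalIdeal A ^ (i + 1) • ⊤ : Submodule A V) ≤
              (maximalIdeal A ^ i • ⊤ : Submodule A V) := by
            rw [hstep]
            exact Submodule.smul_le_right
          have hne : (maximalIdeal A ^ (i + 1) • ⊤ : Submodule A V) ≠
              (maximalIdeal A ^ i • ⊤ : Submodule A V) := by
            intro heq
            apply hbot
            refine Submodule.eq_bot_of_le_smul_of_le_jacobson_bot (maximalIdeal A) _ ?_ ?_
              (IsLocalRing.maximalIdeal_le_jacobson _)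
            · exact Submodule.FG.of_finite
            · rw [← hstep, heq]
          have hlt : ((maximalIdeal A ^ (i + 1) • ⊤ : Submodule A V) : Set V) ⊂
              ((maximalIdeal A ^ i • ⊤ : Submodule A V) : Set V) :=
            (SetLike.coe_ssubset_coe).mpr (lt_of_le_of_ne hle hne)
          have := Set.ncard_lt_ncard hlt (Set.toFinite _)
          omega
  rcases key e with h | h
  · exact h
  · exfalso
    have hpos : 0 < ((maximalIdeal A ^ e • ⊤ : Submodule A V) : Set V).ncard :=
      (Set.ncard_pos (Set.toFinite _)).mpr ⟨0, Submodule.zero_mem _⟩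
    omega

/-- Elementwise version. -/
theorem smul_eq_zero_of_mem_maximalIdeal_pow {A : Type*} [CommRing A] [IsLocalRing A] {V : Type*}
    [AddCommGroup V] [Module A V] [Finite V] {e : ℕ} (he : Nat.card V ≤ e) {a : A}
    (ha : a ∈ maximalIdeal A ^ e) (v : V) : a • v = 0 := by
  have h := maximalIdeal_pow_smul_top_eq_bot (A := A) (V := V) he
  have hm : a • v ∈ (maximalIdeal A ^ e • ⊤ : Submodule A V) :=
    Submodule.smul_mem_smul ha Submodule.mem_top
  rw [h] at hm
  exact (Submodule.mem_bot A).mp hm

end Fermat.Agent.S59.H607
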