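import Mathlib
import Fermat.Prelude.Def_Algebra_PatchingDatum
import Fermat.Agent.S59.H607.Nakayama
import Fermat.Agent.S59.H607.PSeries

/-!
# Patching levels in normalised coordinates (helper607, row S59)

A `NormLevel` is a patching level (Prelude `Algebra.PatchingLevel`) together with a
`φ`-semilinear coordinate map `κ : P^d → N` (surjective, kernel `J^d`) such that
`π (κ c) = ∑ⱼ cⱼ(0) • mⱼ` for a fixed family `m : Fin d → M` independent of the level.
-/

set_option autoImplicit false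

namespace Fermat.Agent.S59.H607

open IsLocalRing MvPowerSeries

/-- A patching level in normalised coordinates. -/
structure NormLevel (𝒪 : Type) [CommRing 𝒪] (r : ℕ) (R : Type) [CommRing R] [Algebra 𝒪 R]
    (M : Type) [AddCommGroup M] [Module R M] (d : ℕ) (m : Fin d → M)
    (J : Ideal (MvPowerSeries (Fin r) 𝒪)) : Type 1 where
  /-- the module of the level -/
  N : Type
  [instAddCommGroup : AddCommGroup N]
  [instModule : Module (MvPowerSeries (Fin r) 𝒪) N]
  /-- the diamond-operator map -/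
  φ : MvPowerSeries (Fin r) 𝒪 →ₐ[𝒪] MvPowerSeries (Fin r) 𝒪
  /-- the structure map -/
  ψ : MvPowerSeries (Fin r) 𝒪 →ₐ[𝒪] R
  ψ_surjective : Function.Surjective ψ
  ψ_φ_X : ∀ i : Fin r, ψ (φ (MvPowerSeries.X i)) = 0
  /-- the projection -/
  π : N →+ M
  π_smul : ∀ (f : MvPowerSeries (Fin r) 𝒪) (x : N), π (f • x) = ψ f • π x
  π_surjective : Function.Surjective π
  ker_π : ∀ x : N, π x = 0 ↔
    x ∈ (Ideal.span (Set.range fun i : Fin r => φ (MvPowerSeries.X i))) •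
      (⊤ : Submodule (MvPowerSeries (Fin r) 𝒪) N)
  /-- the coordinate map -/
  κ : (Fin d → MvPowerSeries (Fin r) 𝒪) →+ N
  κ_smul : ∀ (a : MvPowerSeries (Fin r) 𝒪) (c : Fin d → MvPowerSeries (Fin r) 𝒪),
    κ (a • c) = φ a • κ c
  κ_surjective : Function.Surjective κ
  κ_ker : ∀ c : Fin d → MvPowerSeries (Fin r) 𝒪, κ c = 0 ↔ ∀ j, c j ∈ J
  π_κ : ∀ c : Fin d → MvPowerSeries (Fin r) 𝒪,
    π (κ c) = ∑ j, algebraMap 𝒪 R (MvPowerSeries.constantCoeff (c j)) • m j

attribute [instance] NormLevel.instAddCommGroup NormLevel.instModule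

namespace NormLevel

variable {𝒪 : Type} [CommRing 𝒪] {r : ℕ} {R : Type} [CommRing R] [Algebra 𝒪 R]
  {M : Type} [AddCommGroup M] [Module R M] {d : ℕ} {m : Fin d → M}
  {J : Ideal (MvPowerSeries (Fin r) 𝒪)} (L : NormLevel 𝒪 r R M d m J)

theorem κ_eq_sum (c : Fin d → MvPowerSeries (Fin r) 𝒪) :
    L.κ c = ∑ j, L.φ (c j) • L.κ (Pi.single j 1) := by
  classical
  have h1 : c = ∑ j, c j • (Pi.single j (1 : MvPowerSeries (Fin r) 𝒪) :
      Fin d → MvPowerSeries (Fin r) 𝒪) := by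
    ext k
    simp [Finset.sum_apply, Pi.single_apply]
  conv_lhs => rw [h1]
  rw [map_sum]
  exact Finset.sum_congr rfl fun j _ => L.κ_smul _ _

/-- Elements of `N` all of whose coordinates can be chosen in the ideal `I`. -/
def coordSub (I : Ideal (MvPowerSeries (Fin r) 𝒪)) : Submodule (MvPowerSeries (Fin r) 𝒪) L.N where
  carrier := {x | ∃ c : Fin d → MvPowerSeries (Fin r) 𝒪, (∀ j, c j ∈ I) ∧ L.κ c = x}
  zero_mem' := ⟨0, fun _ => I.zero_mem, map_zero _⟩
  add_mem' := by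
    rintro _ _ ⟨c, hc, rfl⟩ ⟨c', hc', rfl⟩
    exact ⟨c + c', fun j => I.add_mem (hc j) (hc' j), map_add _ _ _⟩
  smul_mem' := by
    rintro f _ ⟨c, hc, rfl⟩
    choose t ht using fun j : Fin d => L.κ_surjective (f • L.κ (Pi.single j 1))
    refine ⟨∑ j, c j • t j, fun k => ?_, ?_⟩
    · rw [Finset.sum_apply]
      refine Ideal.sum_mem _ fun j _ => ?_
      rw [Pi.smul_apply, smul_eq_mul]
      exact Ideal.mul_mem_right _ _ (hc j)
    · rw [map_sum, L.κ_eq_sum c, Finset.smul_sum]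
      refine Finset.sum_congr rfl fun j _ => ?_
      rw [L.κ_smul, ht, smul_comm]

theorem mem_coordSub {I : Ideal (MvPowerSeries (Fin r) 𝒪)} {x : L.N} :
    x ∈ L.coordSub I ↔ ∃ c : Fin d → MvPowerSeries (Fin r) 𝒪, (∀ j, c j ∈ I) ∧ L.κ c = x :=
  Iff.rfl

theorem κ_mem_coordSub {I : Ideal (MvPowerSeries (Fin r) 𝒪)}
    {c : Fin d → MvPowerSeries (Fin r) 𝒪} (hc : ∀ j, c j ∈ I) : L.κ c ∈ L.coordSub I :=
  ⟨c, hc, rfl⟩

theorem coordSub_mono {I I' : Ideal (MvPowerSeries (Fin r) 𝒪)} (h : I ≤ I') :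
    L.coordSub I ≤ L.coordSub I' := by
  rintro _ ⟨c, hc, rfl⟩
  exact ⟨c, fun j => h (hc j), rfl⟩

theorem map_smul_top_eq (I : Ideal (MvPowerSeries (Fin r) 𝒪)) :
    (Ideal.map L.φ I • ⊤ : Submodule (MvPowerSeries (Fin r) 𝒪) L.N) = L.coordSub I := by
  apply le_antisymm
  · rw [Submodule.smul_le]
    intro a ha y hy
    clear hy
    revert y
    refine Submodule.span_induction (p := fun a _ => ∀ y : L.N, a • y ∈ L.coordSub I)
      ?_ ?_ ?_ ?_ ha
    · rintro _ ⟨b, hb, rfl⟩ y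
      obtain ⟨c, rfl⟩ := L.κ_surjective y
      refine ⟨b • c, fun j => ?_, L.κ_smul b c⟩
      rw [Pi.smul_apply, smul_eq_mul]
      exact Ideal.mul_mem_right _ _ hb
    · intro y
      rw [zero_smul]
      exact Submodule.zero_mem _
    · intro a b _ _ ha hb y
      rw [add_smul]
      exact Submodule.add_mem _ (ha y) (hb y)
    · intro b a _ ha y
      rw [smul_eq_mul, mul_smul]
      exact Submodule.smul_mem _ _ (ha y)
  · rintro _ ⟨c, hc, rfl⟩
    rw [L.κ_eq_sum c]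
    refine Submodule.sum_mem _ fun j _ => ?_
    exact Submodule.smul_mem_smul (Ideal.mem_map_of_mem _ (hc j)) Submodule.mem_top

theorem coordSub_top : L.coordSub ⊤ = ⊤ := by
  rw [eq_top_iff]
  intro x _
  obtain ⟨c, rfl⟩ := L.κ_surjective x
  exact ⟨c, fun _ => Submodule.mem_top, rfl⟩

/-- Coordinate congruence principle. -/
theorem sub_mem_of_κ_sub_mem {I : Ideal (MvPowerSeries (Fin r) 𝒪)}
    {c c' : Fin d → MvPowerSeries (Fin r) 𝒪} (h : L.κ c - L.κ c' ∈ L.coordSub I) (j : Fin d) :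
    c j - c' j ∈ I ⊔ J := by
  obtain ⟨c'', hc'', h⟩ := h
  have h0 : L.κ (c - c' - c'') = 0 := by
    rw [map_sub, map_sub, h, sub_self]
  have h1 := (L.κ_ker _).mp h0 j
  have : c j - c' j = c'' j + (c - c' - c'') j := by
    simp only [Pi.sub_apply]
    ring
  rw [this]
  exact Ideal.add_mem _ (Ideal.mem_sup_left (hc'' j)) (Ideal.mem_sup_right h1)

/-- `ψ ∘ φ` is the constant coefficient. -/
theorem ψ_φ (c : MvPowerSeries (Fin r) 𝒪) :
    L.ψ (L.φ c) = algebraMap 𝒪 R (constantCoeff c) := by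
  have h0 : constantCoeff (c - C (constantCoeff c)) = 0 := by simp
  obtain ⟨g, hg⟩ := exists_eq_sum_X_mul (𝒪 := 𝒪) h0
  have h1 : L.ψ (L.φ (c - C (constantCoeff c))) = 0 := by
    rw [hg, map_sum, map_sum]
    refine Finset.sum_eq_zero fun i _ => ?_
    rw [map_mul, map_mul, L.ψ_φ_X, mul_zero]
  rw [map_sub, map_sub, sub_eq_zero] at h1
  rw [h1]
  have : (C (constantCoeff c) : MvPowerSeries (Fin r) 𝒪) =
      algebraMap 𝒪 (MvPowerSeries (Fin r) 𝒪) (constantCoeff c) := rfl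
  rw [this, AlgHom.commutes, AlgHom.commutes]

section Local

variable [IsLocalRing 𝒪]

/-- `ψ` of any level maps `𝔪_P^K` into the image of `𝔪_P^K` under any other surjection. -/
theorem ψ_mem_map (ψ₀ : MvPowerSeries (Fin r) 𝒪 →+* R) (hψ₀ : Function.Surjective ψ₀)
    {K : ℕ} {a : MvPowerSeries (Fin r) 𝒪} (ha : a ∈ maximalIdeal (MvPowerSeries (Fin r) 𝒪) ^ K) :
    L.ψ a ∈ Ideal.map ψ₀ (maximalIdeal (MvPowerSeries (Fin r) 𝒪) ^ K) := by
  have h1 : Ideal.map (L.ψ : MvPowerSeries (Fin r) 𝒪 →+* R)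
      (maximalIdeal (MvPowerSeries (Fin r) 𝒪)) ≤
      Ideal.map ψ₀ (maximalIdeal (MvPowerSeries (Fin r) 𝒪)) := by
    rw [Ideal.map_le_iff_le_comap]
    intro f hf
    rw [Ideal.mem_comap]
    obtain ⟨g, hg⟩ := hψ₀ (L.ψ f)
    by_cases hgm : g ∈ maximalIdeal (MvPowerSeries (Fin r) 𝒪)
    · have := Ideal.mem_map_of_mem ψ₀ hgm
      rw [hg] at this
      exact this
    · -- `g` is a unit, hence so is `ψ f`, which forces `R` to be trivial
      have hgu : IsUnit g := by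
        by_contra hnu
        exact hgm ((IsLocalRing.mem_maximalIdeal g).mpr hnu)
      have hu : IsUnit (L.ψ f) := by
        have := hgu.map ψ₀
        rwa [hg] at this
      obtain ⟨v, hv⟩ := hu.exists_right_inv
      obtain ⟨h, rfl⟩ := L.ψ_surjective v
      have h2 : L.ψ (f * h - 1) = 0 := by
        rw [map_sub, map_mul, hv, map_one, sub_self]
      have hfh : f * h ∈ maximalIdeal (MvPowerSeries (Fin r) 𝒪) := Ideal.mul_mem_right _ _ hf
      have h3 : IsUnit (f * h - 1) := by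
        by_contra hnu
        have h4 : f * h - 1 ∈ maximalIdeal (MvPowerSeries (Fin r) 𝒪) :=
          (IsLocalRing.mem_maximalIdeal _).mpr hnu
        have h5 : (1 : MvPowerSeries (Fin r) 𝒪) ∈ maximalIdeal (MvPowerSeries (Fin r) 𝒪) := by
          have := Ideal.sub_mem _ hfh h4
          simpa using this
        exact (Ideal.ne_top_iff_one _).mp (IsLocalRing.maximalIdeal.isMaximal _).ne_top h5
      have h6 : IsUnit (L.ψ (f * h - 1)) := h3.map L.ψ
      rw [h2] at h6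
      have hsub : Subsingleton R := by
        rw [← not_nontrivial_iff_subsingleton]
        intro hnt
        exact not_isUnit_zero h6
      have : (L.ψ : MvPowerSeries (Fin r) 𝒪 →+* R) f = 0 := Subsingleton.elim _ _
      rw [this]
      exact Ideal.zero_mem _
  have h2 : Ideal.map (L.ψ : MvPowerSeries (Fin r) 𝒪 →+* R)
      (maximalIdeal (MvPowerSeries (Fin r) 𝒪) ^ K) ≤
      Ideal.map ψ₀ (maximalIdeal (MvPowerSeries (Fin r) 𝒪) ^ K) := by
    rw [Ideal.map_pow, Ideal.map_pow]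
    exact Ideal.pow_right_mono h1 K
  exact h2 (Ideal.mem_map_of_mem _ ha)

variable [Finite (MvPowerSeries (Fin r) 𝒪 ⧸ maximalIdeal (MvPowerSeries (Fin r) 𝒪))]

/-- The uniform exponent of equicontinuity. -/
noncomputable def expo (𝒪 : Type) [CommRing 𝒪] [IsLocalRing 𝒪] (r d : ℕ) : ℕ :=
  Nat.card (Fin d → MvPowerSeries (Fin r) 𝒪 ⧸ maximalIdeal (MvPowerSeries (Fin r) 𝒪))

theorem pow_expo_smul_top_le :
    (maximalIdeal (MvPowerSeries (Fin r) 𝒪) ^ expo 𝒪 r d • ⊤ :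
      Submodule (MvPowerSeries (Fin r) 𝒪) L.N) ≤
      L.coordSub (maximalIdeal (MvPowerSeries (Fin r) 𝒪)) := by
  classical
  set 𝔪 := maximalIdeal (MvPowerSeries (Fin r) 𝒪) with h𝔪
  let out : (MvPowerSeries (Fin r) 𝒪 ⧸ 𝔪) → MvPowerSeries (Fin r) 𝒪 :=
    Function.surjInv Ideal.Quotient.mk_surjective
  have hout : ∀ z, Ideal.Quotient.mk 𝔪 (out z) = z :=
    Function.surjInv_eq Ideal.Quotient.mk_surjective
  let g : (Fin d → MvPowerSeries (Fin r) 𝒪 ⧸ 𝔪) → L.N ⧸ L.coordSub 𝔪 :=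
    fun q => Submodule.Quotient.mk (L.κ fun j => out (q j))
  have hg : Function.Surjective g := by
    intro x
    obtain ⟨y, rfl⟩ := Submodule.Quotient.mk_surjective _ x
    obtain ⟨c, rfl⟩ := L.κ_surjective y
    refine ⟨fun j => Ideal.Quotient.mk 𝔪 (c j), ?_⟩
    show Submodule.Quotient.mk _ = Submodule.Quotient.mk _
    rw [Submodule.Quotient.eq, ← map_sub]
    refine L.κ_mem_coordSub fun j => ?_
    rw [Pi.sub_apply, ← Ideal.Quotient.eq, hout]
  haveI : Finite (L.N ⧸ L.coordSub 𝔪) := Finite.of_surjective g hg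
  have hcard : Nat.card (L.N ⧸ L.coordSub 𝔪) ≤ expo 𝒪 r d :=
    Nat.card_le_card_of_surjective g hg
  rw [Submodule.smul_le]
  intro a ha y _
  have := smul_eq_zero_of_mem_maximalIdeal_pow (A := MvPowerSeries (Fin r) 𝒪)
    (V := L.N ⧸ L.coordSub 𝔪) hcard ha (Submodule.Quotient.mk y)
  rw [← Submodule.Quotient.mk_smul, Submodule.Quotient.mk_eq_zero] at this
  exact this

/-- Equicontinuity of the action: `𝔪^(e K) N ⊆ φ(𝔪^K) N` with `e` independent of the level. -/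
theorem pow_smul_top_le (K : ℕ) :
    (maximalIdeal (MvPowerSeries (Fin r) 𝒪) ^ (expo 𝒪 r d * K) • ⊤ :
      Submodule (MvPowerSeries (Fin r) 𝒪) L.N) ≤
      L.coordSub (maximalIdeal (MvPowerSeries (Fin r) 𝒪) ^ K) := by
  induction K with
  | zero =>
    rw [pow_zero, Ideal.one_eq_top, L.coordSub_top]
    exact le_top
  | succ K ih =>
    set 𝔪 := maximalIdeal (MvPowerSeries (Fin r) 𝒪) with h𝔪
    have h1 := L.pow_expo_smul_top_le
    rw [← L.map_smul_top_eq] at h1 ih ⊢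
    calc (𝔪 ^ (expo 𝒪 r d * (K + 1)) • ⊤ : Submodule (MvPowerSeries (Fin r) 𝒪) L.N)
        = 𝔪 ^ (expo 𝒪 r d * K) • (𝔪 ^ expo 𝒪 r d • ⊤ :
            Submodule (MvPowerSeries (Fin r) 𝒪) L.N) := by
          rw [← Submodule.mul_smul, ← pow_add, Nat.mul_succ]
      _ ≤ 𝔪 ^ (expo 𝒪 r d * K) • (Ideal.map L.φ 𝔪 • ⊤ :
            Submodule (MvPowerSeries (Fin r) 𝒪) L.N) := Submodule.smul_mono le_rfl h1
      _ = Ideal.map L.φ 𝔪 • (𝔪 ^ (expo 𝒪 r d * K) • ⊤ :
            Submodule (MvPowerSeries (Fin r) 𝒪) L.N) := by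
          rw [← Submodule.mul_smul, ← Submodule.mul_smul, mul_comm]
      _ ≤ Ideal.map L.φ 𝔪 • (Ideal.map L.φ (𝔪 ^ K) • ⊤ :
            Submodule (MvPowerSeries (Fin r) 𝒪) L.N) := Submodule.smul_mono le_rfl ih
      _ = (Ideal.map L.φ (𝔪 ^ (K + 1)) • ⊤ :
            Submodule (MvPowerSeries (Fin r) 𝒪) L.N) := by
          rw [← Submodule.mul_smul, ← Ideal.map_mul, ← pow_succ']

end Local

end NormLevel

end Fermat.Agent.S59.H607
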