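import Mathlib
import Fermat.Agent.S59.H607.NormLevel

/-!
# The patched level: ultrafilter limit of a family of normalised levels (helper607, row S59)
-/

set_option autoImplicit false

namespace Fermat.Agent.S59.H607

open IsLocalRing MvPowerSeries Filter

theorem mem_pow_smul_top_self {A : Type*} [CommRing A] {I : Ideal A} {x : A} :
    x ∈ (I • ⊤ : Submodule A A) ↔ x ∈ I := by
  rw [smul_eq_mul, Ideal.mul_top]

/-- A family of normalised levels with relation ideals tending to zero along an ultrafilter,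
all over the same `(R, M)`; `R` and `M` are regarded as `P`-modules through a fixed surjection
`P → R` (the `algebraMap`). -/
structure Family (𝒪 : Type) [CommRing 𝒪] [IsLocalRing 𝒪] (r : ℕ) (R : Type) [CommRing R]
    [Algebra 𝒪 R] (M : Type) [AddCommGroup M] [Module R M] (d : ℕ) (m : Fin d → M)
    [Algebra (MvPowerSeries (Fin r) 𝒪) R] : Type 1 where
  /-- the relation ideals -/
  J : ℕ → Ideal (MvPowerSeries (Fin r) 𝒪)
  /-- the levels -/
  Lv : ∀ n, NormLevel 𝒪 r R M d m (J n)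
  /-- the ultrafilter -/
  𝒰 : Ultrafilter ℕ
  hJ : ∀ K : ℕ, ∀ᶠ n in (𝒰 : Filter ℕ), J n ≤ maximalIdeal (MvPowerSeries (Fin r) 𝒪) ^ K
  hsurj : Function.Surjective (algebraMap (MvPowerSeries (Fin r) 𝒪) R)
  hC : ∀ a : 𝒪, algebraMap (MvPowerSeries (Fin r) 𝒪) R (C a) = algebraMap 𝒪 R a
  hE : Function.Bijective (fun a : Fin d → 𝒪 => ∑ j, algebraMap 𝒪 R (a j) • m j)

namespace Family

variable {𝒪 : Type} [CommRing 𝒪] [IsLocalRing 𝒪] [IsNoetherianRing 𝒪]
  [IsAdicComplete (maximalIdeal 𝒪) 𝒪] [Finite (ResidueField 𝒪)]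
  {r : ℕ} {R : Type} [CommRing R] [Algebra 𝒪 R] {M : Type} [AddCommGroup M] [Module R M]
  {d : ℕ} {m : Fin d → M}
  [Algebra (MvPowerSeries (Fin r) 𝒪) R]
  (F : Family 𝒪 r R M d m)

local notation "𝔪P" => maximalIdeal (MvPowerSeries (Fin r) 𝒪)

omit [IsNoetherianRing 𝒪] [IsAdicComplete (maximalIdeal 𝒪) 𝒪] [Finite (ResidueField 𝒪)] in
include F in
theorem finite_R : Module.Finite (MvPowerSeries (Fin r) 𝒪) R :=
  Module.Finite.of_surjective (Algebra.linearMap (MvPowerSeries (Fin r) 𝒪) R) F.hsurj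

/-- `P` is profinite. -/
theorem hP : IsProfiniteAdic 𝔪P (V := MvPowerSeries (Fin r) 𝒪) :=
  isProfiniteAdic_mvPowerSeries

include F in
/-- `R` is profinite (as a `P`-module). -/
theorem hR : IsProfiniteAdic 𝔪P (V := R) :=
  haveI := F.finite_R
  isProfiniteAdic_of_finite R

theorem sub_ulim_mem (a : ℕ → MvPowerSeries (Fin r) 𝒪) (K : ℕ) :
    ∀ᶠ n in (F.𝒰 : Filter ℕ), a n - ulim F.𝒰 hP a ∈ 𝔪P ^ K := by
  filter_upwards [ulim_sub_mem (𝒰 := F.𝒰) hP a K] with n hn
  exact mem_pow_smul_top_self.mp hn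

theorem ulim_eq_of_eventually {a : ℕ → MvPowerSeries (Fin r) 𝒪} {L : MvPowerSeries (Fin r) 𝒪}
    (h : ∀ K : ℕ, ∀ᶠ n in (F.𝒰 : Filter ℕ), a n - L ∈ 𝔪P ^ K) :
    ulim F.𝒰 hP a = L :=
  ulim_eq hP fun K => by
    filter_upwards [h K] with n hn
    exact mem_pow_smul_top_self.mpr hn

/-- The limit of the diamond maps. -/
noncomputable def φInf : MvPowerSeries (Fin r) 𝒪 →ₐ[𝒪] MvPowerSeries (Fin r) 𝒪 where
  toFun f := ulim F.𝒰 hP fun n => (F.Lv n).φ f
  map_one' := ulim_eq hP (by simpa using IsUlim.const (I := 𝔪P) (𝒰 := F.𝒰) 1)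
  map_mul' f g := ulim_eq hP (by
    simpa using (isUlim_ulim F.𝒰 hP fun n => (F.Lv n).φ f).mul
      (isUlim_ulim F.𝒰 hP fun n => (F.Lv n).φ g))
  map_zero' := ulim_eq hP (by simpa using IsUlim.const (I := 𝔪P) (𝒰 := F.𝒰) 0)
  map_add' f g := ulim_eq hP (by
    simpa using (isUlim_ulim F.𝒰 hP fun n => (F.Lv n).φ f).add
      (isUlim_ulim F.𝒰 hP fun n => (F.Lv n).φ g))
  commutes' a := ulim_eq hP (by simpa using IsUlim.const (I := 𝔪P) (𝒰 := F.𝒰) _)

theorem φInf_apply (f : MvPowerSeries (Fin r) 𝒪) :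
    F.φInf f = ulim F.𝒰 hP fun n => (F.Lv n).φ f := rfl

/-- The limit of the structure maps. -/
noncomputable def ψInf : MvPowerSeries (Fin r) 𝒪 →ₐ[𝒪] R where
  toFun f := ulim F.𝒰 F.hR fun n => (F.Lv n).ψ f
  map_one' := ulim_eq F.hR (by simpa using IsUlim.const (I := 𝔪P) (𝒰 := F.𝒰) (1 : R))
  map_mul' f g := ulim_eq F.hR (by
    simpa using (isUlim_ulim F.𝒰 F.hR fun n => (F.Lv n).ψ f).mul
      (isUlim_ulim F.𝒰 F.hR fun n => (F.Lv n).ψ g))
  map_zero' := ulim_eq F.hR (by simpa using IsUlim.const (I := 𝔪P) (𝒰 := F.𝒰) (0 : R))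
  map_add' f g := ulim_eq F.hR (by
    simpa using (isUlim_ulim F.𝒰 F.hR fun n => (F.Lv n).ψ f).add
      (isUlim_ulim F.𝒰 F.hR fun n => (F.Lv n).ψ g))
  commutes' a := ulim_eq F.hR (by
    simpa using IsUlim.const (I := 𝔪P) (𝒰 := F.𝒰) (algebraMap 𝒪 R a))

theorem ψInf_apply (f : MvPowerSeries (Fin r) 𝒪) :
    F.ψInf f = ulim F.𝒰 F.hR fun n => (F.Lv n).ψ f := rfl

/-- A coordinate vector of `f • κ c` at level `n`. -/
noncomputable def act (n : ℕ) (f : MvPowerSeries (Fin r) 𝒪)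
    (c : Fin d → MvPowerSeries (Fin r) 𝒪) : Fin d → MvPowerSeries (Fin r) 𝒪 :=
  Classical.choose ((F.Lv n).κ_surjective (f • (F.Lv n).κ c))

omit [IsNoetherianRing 𝒪] [IsAdicComplete (maximalIdeal 𝒪) 𝒪] [Finite (ResidueField 𝒪)] in
theorem κ_act (n : ℕ) (f : MvPowerSeries (Fin r) 𝒪) (c : Fin d → MvPowerSeries (Fin r) 𝒪) :
    (F.Lv n).κ (F.act n f c) = f • (F.Lv n).κ c :=
  Classical.choose_spec ((F.Lv n).κ_surjective (f • (F.Lv n).κ c))

/-- The limit action of `P` on `P^d`. -/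
noncomputable def smulInf (f : MvPowerSeries (Fin r) 𝒪) (c : Fin d → MvPowerSeries (Fin r) 𝒪) :
    Fin d → MvPowerSeries (Fin r) 𝒪 :=
  fun j => ulim F.𝒰 hP fun n => F.act n f c j

theorem smulInf_spec (f : MvPowerSeries (Fin r) 𝒪) (c : Fin d → MvPowerSeries (Fin r) 𝒪)
    (K : ℕ) : ∀ᶠ n in (F.𝒰 : Filter ℕ),
      (F.Lv n).κ (F.smulInf f c) - f • (F.Lv n).κ c ∈ (F.Lv n).coordSub (𝔪P ^ K) := by
  have h1 : ∀ᶠ n in (F.𝒰 : Filter ℕ), ∀ j : Fin d,
      F.act n f c j - F.smulInf f c j ∈ 𝔪P ^ K :=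
    Filter.eventually_all.mpr fun j => F.sub_ulim_mem (fun n => F.act n f c j) K
  filter_upwards [h1] with n hn
  rw [← F.κ_act, ← map_sub]
  refine (F.Lv n).κ_mem_coordSub fun j => ?_
  have := Ideal.neg_mem_iff _ |>.mpr (hn j)
  simpa using this

theorem smulInf_eq {f : MvPowerSeries (Fin r) 𝒪} {c cs : Fin d → MvPowerSeries (Fin r) 𝒪}
    (h : ∀ K : ℕ, ∀ᶠ n in (F.𝒰 : Filter ℕ),
      (F.Lv n).κ cs - f • (F.Lv n).κ c ∈ (F.Lv n).coordSub (𝔪P ^ K)) :
    F.smulInf f c = cs := by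
  funext j
  refine F.ulim_eq_of_eventually fun K => ?_
  filter_upwards [h K, F.hJ K] with n hn hJn
  rw [← F.κ_act] at hn
  have h2 := (F.Lv n).sub_mem_of_κ_sub_mem hn j
  have h3 : 𝔪P ^ K ⊔ F.J n ≤ 𝔪P ^ K := sup_le le_rfl hJn
  have h4 := Ideal.neg_mem_iff _ |>.mpr (h3 h2)
  simpa using h4


/-! ### The module axioms of the limit action -/

theorem smulInf_one (c : Fin d → MvPowerSeries (Fin r) 𝒪) : F.smulInf 1 c = c :=
  F.smulInf_eq fun K => Filter.Eventually.of_forall fun n => by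
    rw [one_smul, sub_self]
    exact Submodule.zero_mem _

theorem smulInf_mul (f g : MvPowerSeries (Fin r) 𝒪) (c : Fin d → MvPowerSeries (Fin r) 𝒪) :
    F.smulInf (f * g) c = F.smulInf f (F.smulInf g c) :=
  F.smulInf_eq fun K => by
    filter_upwards [F.smulInf_spec f (F.smulInf g c) K, F.smulInf_spec g c K] with n h1 h2
    have : (F.Lv n).κ (F.smulInf f (F.smulInf g c)) - (f * g) • (F.Lv n).κ c =
        ((F.Lv n).κ (F.smulInf f (F.smulInf g c)) - f • (F.Lv n).κ (F.smulInf g c)) +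
          f • ((F.Lv n).κ (F.smulInf g c) - g • (F.Lv n).κ c) := by
      rw [mul_smul, smul_sub]
      abel
    rw [this]
    exact Submodule.add_mem _ h1 (Submodule.smul_mem _ f h2)

theorem smulInf_add (f : MvPowerSeries (Fin r) 𝒪) (c c' : Fin d → MvPowerSeries (Fin r) 𝒪) :
    F.smulInf f (c + c') = F.smulInf f c + F.smulInf f c' :=
  F.smulInf_eq fun K => by
    filter_upwards [F.smulInf_spec f c K, F.smulInf_spec f c' K] with n h1 h2
    have : (F.Lv n).κ (F.smulInf f c + F.smulInf f c') - f • (F.Lv n).κ (c + c') =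
        ((F.Lv n).κ (F.smulInf f c) - f • (F.Lv n).κ c) +
          ((F.Lv n).κ (F.smulInf f c') - f • (F.Lv n).κ c') := by
      rw [map_add, map_add, smul_add]
      abel
    rw [this]
    exact Submodule.add_mem _ h1 h2

theorem add_smulInf (f g : MvPowerSeries (Fin r) 𝒪) (c : Fin d → MvPowerSeries (Fin r) 𝒪) :
    F.smulInf (f + g) c = F.smulInf f c + F.smulInf g c :=
  F.smulInf_eq fun K => by
    filter_upwards [F.smulInf_spec f c K, F.smulInf_spec g c K] with n h1 h2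
    have : (F.Lv n).κ (F.smulInf f c + F.smulInf g c) - (f + g) • (F.Lv n).κ c =
        ((F.Lv n).κ (F.smulInf f c) - f • (F.Lv n).κ c) +
          ((F.Lv n).κ (F.smulInf g c) - g • (F.Lv n).κ c) := by
      rw [map_add, add_smul]
      abel
    rw [this]
    exact Submodule.add_mem _ h1 h2

theorem smulInf_zero (f : MvPowerSeries (Fin r) 𝒪) :
    F.smulInf f (0 : Fin d → MvPowerSeries (Fin r) 𝒪) = 0 :=
  F.smulInf_eq fun K => Filter.Eventually.of_forall fun n => by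
    rw [map_zero, smul_zero, sub_self]
    exact Submodule.zero_mem _

theorem zero_smulInf (c : Fin d → MvPowerSeries (Fin r) 𝒪) : F.smulInf 0 c = 0 :=
  F.smulInf_eq fun K => Filter.Eventually.of_forall fun n => by
    rw [map_zero, zero_smul, sub_self]
    exact Submodule.zero_mem _

/-- Key identity: through `φInf`, the limit action is the coordinatewise multiplication. -/
theorem smulInf_φInf (a : MvPowerSeries (Fin r) 𝒪) (c : Fin d → MvPowerSeries (Fin r) 𝒪) :
    F.smulInf (F.φInf a) c = a • c :=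
  F.smulInf_eq fun K => by
    haveI := finite_quotient_maximalIdeal_mvPowerSeries (𝒪 := 𝒪) (r := r)
    filter_upwards [F.sub_ulim_mem (fun n => (F.Lv n).φ a) (NormLevel.expo 𝒪 r d * K)] with n hn
    rw [(F.Lv n).κ_smul, ← sub_smul]
    exact (F.Lv n).pow_smul_top_le K (Submodule.smul_mem_smul hn Submodule.mem_top)

/-! ### The structure map and the projection -/

omit [IsNoetherianRing 𝒪] [IsAdicComplete (maximalIdeal 𝒪) 𝒪] [Finite (ResidueField 𝒪)] in
theorem ψ_mem_smul_top (n : ℕ) {K : ℕ} {a : MvPowerSeries (Fin r) 𝒪} (ha : a ∈ 𝔪P ^ K) :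
    (F.Lv n).ψ a ∈ (𝔪P ^ K • ⊤ : Submodule (MvPowerSeries (Fin r) 𝒪) R) := by
  rw [Ideal.smul_top_eq_map]
  exact (F.Lv n).ψ_mem_map (algebraMap (MvPowerSeries (Fin r) 𝒪) R) F.hsurj ha

theorem ψInf_surjective : Function.Surjective F.ψInf := by
  intro s
  choose f hf using fun n => (F.Lv n).ψ_surjective s
  refine ⟨ulim F.𝒰 hP f, ?_⟩
  refine ulim_eq F.hR fun K => ?_
  filter_upwards [F.sub_ulim_mem f K] with n hn
  have : (F.Lv n).ψ (ulim F.𝒰 hP f) - s = - (F.Lv n).ψ (f n - ulim F.𝒰 hP f) := by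
    rw [map_sub, hf]
    ring
  rw [this]
  exact Submodule.neg_mem _ (F.ψ_mem_smul_top n hn)

theorem ψInf_φInf_X (i : Fin r) : F.ψInf (F.φInf (X i)) = 0 := by
  refine ulim_eq F.hR fun K => ?_
  filter_upwards [F.sub_ulim_mem (fun n => (F.Lv n).φ (X i)) K] with n hn
  have : (F.Lv n).ψ (F.φInf (X i)) - 0 =
      - (F.Lv n).ψ ((F.Lv n).φ (X i) - F.φInf (X i)) := by
    rw [map_sub, (F.Lv n).ψ_φ_X]
    ring
  rw [this]
  exact Submodule.neg_mem _ (F.ψ_mem_smul_top n hn)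

end Family

/-- The projection `P^d → M`, `c ↦ ∑ⱼ cⱼ(0) • mⱼ`. -/
noncomputable def coordProj {𝒪 : Type} [CommRing 𝒪] {r : ℕ} (R : Type) [CommRing R]
    [Algebra 𝒪 R] {M : Type} [AddCommGroup M] [Module R M] {d : ℕ} (m : Fin d → M) :
    (Fin d → MvPowerSeries (Fin r) 𝒪) →+ M where
  toFun c := ∑ j, algebraMap 𝒪 R (constantCoeff (c j)) • m j
  map_zero' := by simp
  map_add' c c' := by simp [add_smul, Finset.sum_add_distrib]

theorem coordProj_apply {𝒪 : Type} [CommRing 𝒪] {r : ℕ} (R : Type) [CommRing R]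
    [Algebra 𝒪 R] {M : Type} [AddCommGroup M] [Module R M] {d : ℕ} (m : Fin d → M)
    (c : Fin d → MvPowerSeries (Fin r) 𝒪) :
    coordProj R m c = ∑ j, algebraMap 𝒪 R (constantCoeff (c j)) • m j := rfl

theorem smul_mem_smul_top_of_mem {A : Type*} [CommRing A] {B : Type*} [CommRing B] [Algebra A B]
    {V : Type*} [AddCommGroup V] [Module B V] [Module A V] [IsScalarTower A B V] {I : Ideal A}
    {b : B} (hb : b ∈ (I • ⊤ : Submodule A B)) (x : V) : b • x ∈ (I • ⊤ : Submodule A V) := by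
  refine Submodule.smul_induction_on hb (fun a ha s _ => ?_) (fun u v hu hv => ?_)
  · rw [smul_assoc]
    exact Submodule.smul_mem_smul ha Submodule.mem_top
  · rw [add_smul]
    exact Submodule.add_mem _ hu hv

namespace Family

variable {𝒪 : Type} [CommRing 𝒪] [IsLocalRing 𝒪] [IsNoetherianRing 𝒪]
  [IsAdicComplete (maximalIdeal 𝒪) 𝒪] [Finite (ResidueField 𝒪)]
  {r : ℕ} {R : Type} [CommRing R] [Algebra 𝒪 R] {M : Type} [AddCommGroup M] [Module R M]
  {d : ℕ} {m : Fin d → M}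
  [Algebra (MvPowerSeries (Fin r) 𝒪) R]
  (F : Family 𝒪 r R M d m)
  [Module (MvPowerSeries (Fin r) 𝒪) M] [IsScalarTower (MvPowerSeries (Fin r) 𝒪) R M]

local notation "𝔪P" => maximalIdeal (MvPowerSeries (Fin r) 𝒪)

omit [IsNoetherianRing 𝒪] [IsAdicComplete (maximalIdeal 𝒪) 𝒪] [Finite (ResidueField 𝒪)]
  [Module (MvPowerSeries (Fin r) 𝒪) M] [IsScalarTower (MvPowerSeries (Fin r) 𝒪) R M] in
theorem coordProj_eq (n : ℕ) (c : Fin d → MvPowerSeries (Fin r) 𝒪) :
    coordProj R m c = (F.Lv n).π ((F.Lv n).κ c) := ((F.Lv n).π_κ c).symm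

omit [IsNoetherianRing 𝒪] [IsAdicComplete (maximalIdeal 𝒪) 𝒪] [Finite (ResidueField 𝒪)] in
include F in
theorem algebraMap_smul_eq (a : 𝒪) (x : M) :
    algebraMap 𝒪 R a • x = (C a : MvPowerSeries (Fin r) 𝒪) • x := by
  rw [← F.hC]
  exact algebraMap_smul R _ x

omit [IsNoetherianRing 𝒪] [IsAdicComplete (maximalIdeal 𝒪) 𝒪] [Finite (ResidueField 𝒪)] in
include F in
theorem finite_M : Module.Finite (MvPowerSeries (Fin r) 𝒪) M := by
  refine Module.Finite.of_surjective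
    (Fintype.linearCombination (MvPowerSeries (Fin r) 𝒪) m) ?_
  intro x
  obtain ⟨a, ha⟩ := F.hE.2 x
  refine ⟨fun j => C (a j), ?_⟩
  rw [Fintype.linearCombination_apply, ← ha]
  exact Finset.sum_congr rfl fun j _ => (F.algebraMap_smul_eq (a j) (m j)).symm

omit [IsNoetherianRing 𝒪] [IsAdicComplete (maximalIdeal 𝒪) 𝒪] [Finite (ResidueField 𝒪)] in
include F in
theorem coordProj_mem {K : ℕ} {c : Fin d → MvPowerSeries (Fin r) 𝒪}
    (hc : ∀ j, c j ∈ 𝔪P ^ K) :
    coordProj R m c ∈ (𝔪P ^ K • ⊤ : Submodule (MvPowerSeries (Fin r) 𝒪) M) := by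
  rw [coordProj_apply]
  refine Submodule.sum_mem _ fun j _ => ?_
  rw [F.algebraMap_smul_eq (constantCoeff (c j)) (m j)]
  exact Submodule.smul_mem_smul
    (C_mem_maximalIdeal_pow (constantCoeff_mem_maximalIdeal_pow (hc j))) Submodule.mem_top

theorem coordProj_smulInf (f : MvPowerSeries (Fin r) 𝒪) (c : Fin d → MvPowerSeries (Fin r) 𝒪) :
    coordProj R m (F.smulInf f c) = F.ψInf f • coordProj R m c := by
  haveI := F.finite_M
  have hM : IsHausdorff 𝔪P M := (isProfiniteAdic_of_finite M).haus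
  rw [← sub_eq_zero]
  refine IsHausdorff.haus hM _ fun K => ?_
  rw [SModEq.zero]
  obtain ⟨n, h1, h2⟩ := ((F.smulInf_spec f c K).and
    (ulim_sub_mem (𝒰 := F.𝒰) F.hR (fun n => (F.Lv n).ψ f) K)).exists
  obtain ⟨c'', hc'', h1⟩ := h1
  have e1 : coordProj R m (F.smulInf f c) - F.ψInf f • coordProj R m c =
      coordProj R m c'' + ((F.Lv n).ψ f - F.ψInf f) • coordProj R m c := by
    rw [F.coordProj_eq n c'', h1, map_sub, (F.Lv n).π_smul, ← F.coordProj_eq, ← F.coordProj_eq,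
      sub_smul]
    abel
  rw [e1]
  exact Submodule.add_mem _ (F.coordProj_mem hc'')
    (smul_mem_smul_top_of_mem (A := MvPowerSeries (Fin r) 𝒪) h2 _)

/-! ### The patched level -/

/-- The underlying type of the patched module (`P^d` with the limit action). -/
def NInf (_F : Family 𝒪 r R M d m) : Type := Fin d → MvPowerSeries (Fin r) 𝒪

instance : AddCommGroup F.NInf := inferInstanceAs (AddCommGroup (Fin d → MvPowerSeries (Fin r) 𝒪))

noncomputable instance : Module (MvPowerSeries (Fin r) 𝒪) F.NInf where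
  smul f c := F.smulInf f c
  one_smul := F.smulInf_one
  mul_smul := F.smulInf_mul
  smul_zero := F.smulInf_zero
  smul_add := F.smulInf_add
  add_smul := F.add_smulInf
  zero_smul := F.zero_smulInf

omit [Module (MvPowerSeries (Fin r) 𝒪) M] [IsScalarTower (MvPowerSeries (Fin r) 𝒪) R M] in
theorem smul_def (f : MvPowerSeries (Fin r) 𝒪) (c : F.NInf) : f • c = F.smulInf f c := rfl

/-- coordinates as an element of the patched module -/
def toN (c : Fin d → MvPowerSeries (Fin r) 𝒪) : F.NInf := c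

omit [Module (MvPowerSeries (Fin r) 𝒪) M] [IsScalarTower (MvPowerSeries (Fin r) 𝒪) R M] in
theorem smul_toN (f : MvPowerSeries (Fin r) 𝒪) (c : Fin d → MvPowerSeries (Fin r) 𝒪) :
    f • F.toN c = F.toN (F.smulInf f c) := rfl

/-- the standard basis vectors -/
noncomputable def bInf (j : Fin d) : F.NInf := (Pi.single j 1 : Fin d → MvPowerSeries (Fin r) 𝒪)

omit [Module (MvPowerSeries (Fin r) 𝒪) M] [IsScalarTower (MvPowerSeries (Fin r) 𝒪) R M] in
theorem sum_φInf_smul_bInf (c : Fin d → MvPowerSeries (Fin r) 𝒪) :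
    (∑ i, F.φInf (c i) • F.bInf i : F.NInf) = c := by
  classical
  have h1 : ∀ i, (F.φInf (c i) • F.bInf i : F.NInf) =
      (c i • (Pi.single i 1 : Fin d → MvPowerSeries (Fin r) 𝒪)) := fun i =>
    F.smulInf_φInf (c i) _
  simp only [h1]
  show (∑ i, c i • (Pi.single i 1 : Fin d → MvPowerSeries (Fin r) 𝒪)) = c
  ext k
  simp [Finset.sum_apply, Pi.single_apply]

/-- The projection of the patched level. -/
noncomputable def πInf : F.NInf →+ M := coordProj R m

omit [IsNoetherianRing 𝒪] [IsAdicComplete (maximalIdeal 𝒪) 𝒪] [Finite (ResidueField 𝒪)]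
  [Module (MvPowerSeries (Fin r) 𝒪) M] [IsScalarTower (MvPowerSeries (Fin r) 𝒪) R M] in
theorem πInf_apply (c : F.NInf) :
    F.πInf c = ∑ j, algebraMap 𝒪 R (constantCoeff ((c : Fin d → MvPowerSeries (Fin r) 𝒪) j)) •
      m j := rfl

theorem πInf_smul (f : MvPowerSeries (Fin r) 𝒪) (c : F.NInf) :
    F.πInf (f • c) = F.ψInf f • F.πInf c :=
  F.coordProj_smulInf f c

omit [IsNoetherianRing 𝒪] [IsAdicComplete (maximalIdeal 𝒪) 𝒪] [Finite (ResidueField 𝒪)]
  [Module (MvPowerSeries (Fin r) 𝒪) M] [IsScalarTower (MvPowerSeries (Fin r) 𝒪) R M] in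
theorem πInf_surjective : Function.Surjective F.πInf := by
  intro x
  obtain ⟨a, ha⟩ := F.hE.2 x
  refine ⟨F.toN fun j => C (a j), ?_⟩
  show ∑ j, algebraMap 𝒪 R (constantCoeff (C (a j) : MvPowerSeries (Fin r) 𝒪)) • m j = x
  rw [← ha]
  simp

omit [IsNoetherianRing 𝒪] [IsAdicComplete (maximalIdeal 𝒪) 𝒪] [Finite (ResidueField 𝒪)]
  [Module (MvPowerSeries (Fin r) 𝒪) M] [IsScalarTower (MvPowerSeries (Fin r) 𝒪) R M] in
theorem constantCoeff_eq_zero_of_πInf_eq_zero {c : F.NInf} (h : F.πInf c = 0) (j : Fin d) :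
    constantCoeff ((c : Fin d → MvPowerSeries (Fin r) 𝒪) j) = 0 := by
  have h0 : (fun a : Fin d → 𝒪 => ∑ j, algebraMap 𝒪 R (a j) • m j) 0 = 0 := by simp
  have h1 : (fun a : Fin d → 𝒪 => ∑ j, algebraMap 𝒪 R (a j) • m j)
      (fun j => constantCoeff ((c : Fin d → MvPowerSeries (Fin r) 𝒪) j)) = 0 := h
  have h2 := F.hE.1 (h1.trans h0.symm)
  exact congrFun h2 j

theorem πInf_eq_zero_iff (x : F.NInf) :
    F.πInf x = 0 ↔
      x ∈ (Ideal.span (Set.range fun i : Fin r => F.φInf (X i))) •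
        (⊤ : Submodule (MvPowerSeries (Fin r) 𝒪) F.NInf) := by
  constructor
  · intro h
    have h1 := fun j => exists_eq_sum_X_mul (F.constantCoeff_eq_zero_of_πInf_eq_zero h j)
    choose g hg using h1
    have hx : x = ∑ i, F.φInf (X i) • F.toN (fun j => g j i) := by
      have h2 : ∀ i, F.φInf (X i) • F.toN (fun j => g j i) =
          F.toN ((X i : MvPowerSeries (Fin r) 𝒪) • (fun j => g j i :
            Fin d → MvPowerSeries (Fin r) 𝒪)) := fun i =>
        congrArg F.toN (F.smulInf_φInf (X i) _)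
      simp only [h2]
      show (x : Fin d → MvPowerSeries (Fin r) 𝒪) =
        ∑ i, (X i : MvPowerSeries (Fin r) 𝒪) • (fun j => g j i :
          Fin d → MvPowerSeries (Fin r) 𝒪)
      funext j
      rw [hg j, Finset.sum_apply]
      refine Finset.sum_congr rfl fun i _ => ?_
      rw [Pi.smul_apply, smul_eq_mul, mul_comm]
    rw [hx]
    exact Submodule.sum_mem _ fun i _ =>
      Submodule.smul_mem_smul (Ideal.subset_span ⟨i, rfl⟩) Submodule.mem_top
  · intro h
    have hker : Ideal.span (Set.range fun i : Fin r => F.φInf (X i)) ≤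
        RingHom.ker (F.ψInf : MvPowerSeries (Fin r) 𝒪 →+* R) := by
      rw [Ideal.span_le]
      rintro _ ⟨i, rfl⟩
      exact F.ψInf_φInf_X i
    refine Submodule.smul_induction_on h (fun a ha y _ => ?_) (fun u v hu hv => ?_)
    · rw [F.πInf_smul]
      have : F.ψInf a = 0 := hker ha
      rw [this, zero_smul]
    · rw [map_add, hu, hv, add_zero]

/-- **The patched level** (relation ideal `⊥`). -/
noncomputable def patchedLevel : Algebra.PatchingLevel 𝒪 r R M ⊥ where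
  N := F.NInf
  φ := F.φInf
  ψ := F.ψInf
  ψ_surjective := F.ψInf_surjective
  ψ_φ_X := F.ψInf_φInf_X
  π := F.πInf
  π_smul := F.πInf_smul
  π_surjective := F.πInf_surjective
  ker_π := F.πInf_eq_zero_iff
  d := d
  b := F.bInf
  b_span x := ⟨x, (F.sum_φInf_smul_bInf x).symm⟩
  b_rel c := by
    rw [F.sum_φInf_smul_bInf c]
    constructor
    · intro h i
      exact (Submodule.mem_bot _).mpr (congrFun h i)
    · intro h
      funext i
      exact (Submodule.mem_bot _).mp (h i)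

end Family

end Fermat.Agent.S59.H607
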