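import Mathlib
import Fermat.Agent.S59.NC.Spec

/-!
# Monomial complete intersections in power series rings (helper607, row S59, piece N1/MONO)

`monomialStatement : Fermat.Agent.S59.NC.MonomialStatement`.

The ideal `(X_jᴺ : j ∈ S)` of `k⟦X⟧` (`S` finite) is the set of power series all of whose
monomials are divisible by some `X_jᴺ`, `j ∈ S` (`mem_span_X_pow_iff`).
-/

set_option autoImplicit false

namespace Fermat.Agent.S59.H607

open MvPowerSeries

section Mono

variable {σ : Type*} {k : Type*} [CommRing k]

/-- Power series all of whose monomials are divisible by some `X_jᴺ`, `j ∈ S`. -/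
def monoIdeal (k : Type*) [CommRing k] {σ : Type*} (S : Set σ) (N : ℕ) :
    Ideal (MvPowerSeries σ k) where
  carrier := {f | ∀ m : σ →₀ ℕ, (∀ j ∈ S, m j < N) → coeff m f = 0}
  zero_mem' := fun m _ => by simp
  add_mem' := fun {f g} hf hg m hm => by rw [map_add, hf m hm, hg m hm, add_zero]
  smul_mem' := fun g f hf m hm => by
    classical
    rw [smul_eq_mul, coeff_mul]
    refine Finset.sum_eq_zero fun p hp => ?_
    have hp' : p.1 + p.2 = m := Finset.HasAntidiagonal.mem_antidiagonal.mp hp
    have h2 : coeff p.2 f = 0 := hf p.2 fun j hj => by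
      refine lt_of_le_of_lt ?_ (hm j hj)
      rw [← hp', Finsupp.add_apply]
      exact Nat.le_add_left _ _
    rw [h2, mul_zero]

theorem mem_monoIdeal {S : Set σ} {N : ℕ} {f : MvPowerSeries σ k} :
    f ∈ monoIdeal k S N ↔ ∀ m : σ →₀ ℕ, (∀ j ∈ S, m j < N) → coeff m f = 0 := Iff.rfl

theorem monoIdeal_mono {S S' : Set σ} (h : S ⊆ S') (N : ℕ) :
    monoIdeal k S N ≤ monoIdeal k S' N := fun _ hf m hm => hf m fun j hj => hm j (h hj)

theorem span_X_pow_le_monoIdeal (S : Set σ) (N : ℕ) :
    Ideal.span ((fun j => (X j : MvPowerSeries σ k) ^ N) '' S) ≤ monoIdeal k S N := by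
  classical
  rw [Ideal.span_le]
  rintro _ ⟨j, hj, rfl⟩
  intro m hm
  rw [coeff_X_pow, if_neg]
  rintro rfl
  have := hm j hj
  simp at this

theorem coeff_X_pow_mul_add (j : σ) (N : ℕ) (u : MvPowerSeries σ k) (m : σ →₀ ℕ) :
    coeff (m + Finsupp.single j N) (X j ^ N * u) = coeff m u := by
  classical
  rw [X_pow_eq, coeff_monomial_mul, if_pos (le_add_self), one_mul, add_tsub_cancel_right]

theorem coeff_X_pow_mul_of_lt (j : σ) (N : ℕ) (u : MvPowerSeries σ k) {m : σ →₀ ℕ}
    (h : m j < N) : coeff m (X j ^ N * u) = 0 := by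
  classical
  rw [X_pow_eq, coeff_monomial_mul, if_neg]
  intro hle
  have := hle j
  simp only [Finsupp.single_eq_same] at this
  omega

theorem monoIdeal_le_span_X_pow_finset (S : Finset σ) (N : ℕ) :
    monoIdeal k (S : Set σ) N ≤
      Ideal.span ((fun j => (X j : MvPowerSeries σ k) ^ N) '' (S : Set σ)) := by
  classical
  induction S using Finset.induction_on with
  | empty =>
    intro f hf
    have : f = 0 := by
      ext m
      rw [map_zero]
      exact hf m fun j hj => absurd hj (by simp)
    rw [this]
    exact Ideal.zero_mem _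
  | insert j S' hj ih =>
    intro f hf
    -- the part of `f` divisible by `X_jᴺ`
    let g : MvPowerSeries σ k := fun m' => coeff (m' + Finsupp.single j N) f
    have hg : ∀ m', coeff m' g = coeff (m' + Finsupp.single j N) f := fun _ => rfl
    have h2 : f - X j ^ N * g ∈ monoIdeal k (S' : Set σ) N := by
      intro m hm
      rw [map_sub]
      by_cases hmj : m j < N
      · rw [coeff_X_pow_mul_of_lt j N g hmj, sub_zero]
        refine hf m fun j' hj' => ?_
        rw [Finset.coe_insert, Set.mem_insert_iff] at hj'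
        rcases hj' with rfl | hj'
        · exact hmj
        · exact hm j' hj'
      · have hle : Finsupp.single j N ≤ m := by
          intro j'
          by_cases hjj : j' = j
          · subst hjj
            simp only [Finsupp.single_eq_same]
            omega
          · rw [Finsupp.single_apply, if_neg (fun h => hjj h.symm)]
            exact Nat.zero_le _
        have hm' : m = (m - Finsupp.single j N) + Finsupp.single j N :=
          (tsub_add_cancel_of_le hle).symm
        conv_lhs => rw [hm', coeff_X_pow_mul_add, hg, ← hm']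
        exact sub_self _
    have h3 : f = X j ^ N * g + (f - X j ^ N * g) := by ring
    rw [h3]
    refine Ideal.add_mem _ (Ideal.mul_mem_right _ _ (Ideal.subset_span ⟨j, by simp, rfl⟩)) ?_
    refine Ideal.span_mono (Set.image_mono ?_) (ih h2)
    exact Finset.coe_subset.mpr (Finset.subset_insert j S')

/-- The monomial ideal `(X_jᴺ : j ∈ S)`, `S` finite, in terms of coefficients. -/
theorem mem_span_X_pow_iff {S : Set σ} (hS : S.Finite) {N : ℕ} {f : MvPowerSeries σ k} :
    f ∈ Ideal.span ((fun j => (X j : MvPowerSeries σ k) ^ N) '' S) ↔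
      ∀ m : σ →₀ ℕ, (∀ j ∈ S, m j < N) → coeff m f = 0 := by
  constructor
  · intro h
    exact span_X_pow_le_monoIdeal S N h
  · intro h
    have h1 := monoIdeal_le_span_X_pow_finset (k := k) hS.toFinset N
    rw [Set.Finite.coe_toFinset] at h1
    exact h1 h

/-- `X_iᴺ` is a nonzerodivisor modulo `(X_jᴺ : j ∈ S)` if `i ∉ S`. -/
theorem mem_span_X_pow_of_X_pow_mul_mem {S : Set σ} (hS : S.Finite) {N : ℕ} {i : σ} (hi : i ∉ S)
    {u : MvPowerSeries σ k}
    (h : X i ^ N * u ∈ Ideal.span ((fun j => (X j : MvPowerSeries σ k) ^ N) '' S)) :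
    u ∈ Ideal.span ((fun j => (X j : MvPowerSeries σ k) ^ N) '' S) := by
  classical
  rw [mem_span_X_pow_iff hS] at h ⊢
  intro m hm
  rw [← coeff_X_pow_mul_add i N u m]
  refine h _ fun j hj => ?_
  have hji : i ≠ j := fun hji => hi (hji ▸ hj)
  rw [Finsupp.add_apply, Finsupp.single_apply, if_neg hji, add_zero]
  exact hm j hj

theorem prod_X_pow_notMem_span [Nontrivial k] [Fintype σ] {N : ℕ} (hN : 1 ≤ N) :
    (∏ i : σ, (X i : MvPowerSeries σ k) ^ (N - 1)) ∉
      Ideal.span (Set.range fun j => (X j : MvPowerSeries σ k) ^ N) := by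
  classical
  intro h
  rw [← Set.image_univ, mem_span_X_pow_iff Set.finite_univ] at h
  have h1 : (∏ i : σ, (X i : MvPowerSeries σ k) ^ (N - 1)) =
      monomial (∑ i : σ, Finsupp.single i (N - 1)) (1 : k) := by
    simp only [X_pow_eq]
    rw [prod_monomial]
    simp
  have h2 := h (∑ i : σ, Finsupp.single i (N - 1)) (fun j _ => by
    rw [Finsupp.finsetSum_apply]
    simp only [Finsupp.single_apply, Finset.sum_ite_eq', Finset.mem_univ, if_true]
    omega)
  rw [h1, coeff_monomial_same] at h2
  exact one_ne_zero h2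

end Mono

/-- **MONO** -/
theorem monomialStatement : Fermat.Agent.S59.NC.MonomialStatement := by
  intro k _ n N hN
  refine ⟨fun i u h => ?_, prod_X_pow_notMem_span hN⟩
  exact mem_span_X_pow_of_X_pow_mul_mem (Set.toFinite _) (by simp) h

end Fermat.Agent.S59.H607
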