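import Mathlib
import Fermat.Agent.S57
import Fermat.Agent.S59.H607.Limit

/-!
# The patching lemma (helper607, row S59)

From a Taylor–Wiles patching datum (Prelude `Algebra.PatchingDatum`: a tower of patching levels
with relation ideals `((1 + X_j)^(ℓ^n) - 1)_j`) over a complete Noetherian local ring `𝒪` with
finite residue field and `ℓ ∈ 𝔪_𝒪`, we construct a patching level with relation ideal `⊥`
(`patching`), to which the frozen statement S57 applies (`patching_free`).

The construction: normalise all the levels to common coordinates (`NormLevel.rebase`), and take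
the limit along a non-principal ultrafilter (`Family.patchedLevel`, file `Limit.lean`).
-/

set_option autoImplicit false

namespace Fermat.Agent.S59.H607

open IsLocalRing MvPowerSeries Filter

section Norm

variable {𝒪 : Type} [CommRing 𝒪] {r : ℕ} {R : Type} [CommRing R] [Algebra 𝒪 R]
  {M : Type} [AddCommGroup M] [Module R M]

/-- The evaluation map `𝒪^d → M`, `a ↦ ∑ⱼ aⱼ • mⱼ`. -/
def evalMap (R : Type) [CommRing R] [Algebra 𝒪 R] {M : Type} [AddCommGroup M] [Module R M]
    {d : ℕ} (m : Fin d → M) (a : Fin d → 𝒪) : M :=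
  ∑ j, algebraMap 𝒪 R (a j) • m j

theorem evalMap_apply {d : ℕ} (m : Fin d → M) (a : Fin d → 𝒪) :
    evalMap R m a = ∑ j, algebraMap 𝒪 R (a j) • m j := rfl

theorem evalMap_vecMul {d d' : ℕ} (m : Fin d → M) (a : Fin d' → 𝒪)
    (A : Matrix (Fin d') (Fin d) 𝒪) :
    evalMap R m (Matrix.vecMul a A) = ∑ k, algebraMap 𝒪 R (a k) • evalMap R m (A k) := by
  simp only [evalMap, Matrix.vecMul, dotProduct, map_sum, map_mul, Finset.sum_smul,
    Finset.smul_sum, mul_smul]
  exact Finset.sum_comm

theorem evalMap_one {d : ℕ} (m : Fin d → M) (j : Fin d) :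
    evalMap R m ((1 : Matrix (Fin d) (Fin d) 𝒪) j) = m j := by
  classical
  rw [evalMap_apply]
  rw [Finset.sum_eq_single j]
  · rw [Matrix.one_apply_eq, map_one, one_smul]
  · intro k _ hk
    rw [Matrix.one_apply_ne hk.symm, map_zero, zero_smul]
  · intro h
    exact absurd (Finset.mem_univ j) h

theorem evalMap_sub {d : ℕ} (m : Fin d → M) (a a' : Fin d → 𝒪) :
    evalMap R m (a - a') = evalMap R m a - evalMap R m a' := by
  simp only [evalMap, Pi.sub_apply, map_sub, sub_smul, Finset.sum_sub_distrib]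

theorem vecMul_mem_of_forall_mem {A : Type*} [CommRing A] {J : Ideal A} {d d' : ℕ}
    {c : Fin d → A} (h : ∀ j, c j ∈ J) (B : Matrix (Fin d) (Fin d') A) (k : Fin d') :
    Matrix.vecMul c B k ∈ J := by
  simp only [Matrix.vecMul, dotProduct]
  exact Ideal.sum_mem _ fun j _ => Ideal.mul_mem_right _ _ (h j)

/-- `ψ ∘ φ` is the constant coefficient, for a Prelude patching level. -/
theorem patchingLevel_ψ_φ {J : Ideal (MvPowerSeries (Fin r) 𝒪)}
    (L : Algebra.PatchingLevel 𝒪 r R M J) (c : MvPowerSeries (Fin r) 𝒪) :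
    L.ψ (L.φ c) = algebraMap 𝒪 R (constantCoeff c) := by
  have h0 : constantCoeff (c - C (constantCoeff c)) = 0 := by simp
  obtain ⟨g, hg⟩ := exists_eq_sum_X_mul (𝒪 := 𝒪) h0
  have h1 : L.ψ (L.φ (c - C (constantCoeff c))) = 0 := by
    rw [hg, map_sum, map_sum]
    refine Finset.sum_eq_zero fun i _ => ?_
    rw [map_mul, map_mul, L.ψ_φ_X, mul_zero]
  rw [map_sub, map_sub, sub_eq_zero] at h1
  rw [h1]
  have : (C (constantCoeff c) : MvPowerSeries (Fin r) 𝒪) =
      algebraMap 𝒪 (MvPowerSeries (Fin r) 𝒪) (constantCoeff c) := rfl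
  rw [this, AlgHom.commutes, AlgHom.commutes]

/-- A Prelude patching level, in the normalised coordinates given by its own generators. -/
noncomputable def NormLevel.ofPatchingLevel {J : Ideal (MvPowerSeries (Fin r) 𝒪)}
    (L : Algebra.PatchingLevel 𝒪 r R M J) :
    NormLevel 𝒪 r R M L.d (fun k => L.π (L.b k)) J where
  N := L.N
  φ := L.φ
  ψ := L.ψ
  ψ_surjective := L.ψ_surjective
  ψ_φ_X := L.ψ_φ_X
  π := L.π
  π_smul := L.π_smul
  π_surjective := L.π_surjective
  ker_π := L.ker_π
  κ :=
    { toFun := fun c => ∑ i, L.φ (c i) • L.b i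
      map_zero' := by simp
      map_add' := fun c c' => by
        simp only [Pi.add_apply, map_add, add_smul, Finset.sum_add_distrib] }
  κ_smul a c := by
    show ∑ i, L.φ ((a • c) i) • L.b i = L.φ a • ∑ i, L.φ (c i) • L.b i
    rw [Finset.smul_sum]
    refine Finset.sum_congr rfl fun i _ => ?_
    rw [Pi.smul_apply, smul_eq_mul, map_mul, mul_smul]
  κ_surjective x := by
    obtain ⟨c, hc⟩ := L.b_span x
    exact ⟨c, hc.symm⟩
  κ_ker := L.b_rel
  π_κ c := by
    show L.π (∑ i, L.φ (c i) • L.b i) = _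
    rw [map_sum]
    refine Finset.sum_congr rfl fun i _ => ?_
    rw [L.π_smul, patchingLevel_ψ_φ]

/-- For a normalised level whose relation ideal has no constant terms, the evaluation map
`𝒪^d → M` is bijective. -/
theorem NormLevel.evalMap_bijective {d : ℕ} {m : Fin d → M}
    {J : Ideal (MvPowerSeries (Fin r) 𝒪)} (L : NormLevel 𝒪 r R M d m J)
    (hJ : ∀ f ∈ J, constantCoeff f = 0) : Function.Bijective (evalMap (𝒪 := 𝒪) R m) := by
  constructor
  · have key : ∀ a : Fin d → 𝒪, evalMap R m a = 0 → a = 0 := by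
      intro a ha
      have h1 : L.π (L.κ fun j => C (a j)) = 0 := by
        rw [L.π_κ]
        simpa [evalMap] using ha
      rw [L.ker_π] at h1
      have h2 : Ideal.span (Set.range fun i : Fin r => L.φ (X i)) =
          Ideal.map L.φ (Ideal.span (Set.range fun i : Fin r =>
            (X i : MvPowerSeries (Fin r) 𝒪))) := by
        rw [Ideal.map_span, ← Set.range_comp]
        rfl
      rw [h2, L.map_smul_top_eq] at h1
      obtain ⟨c', hc', h3⟩ := h1
      funext j
      have h4 : L.κ ((fun j => C (a j)) - c') = 0 := by rw [map_sub, h3, sub_self]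
      have h5 := hJ _ ((L.κ_ker _).mp h4 j)
      have h6 : constantCoeff (c' j) = 0 := by
        have hle : Ideal.span (Set.range fun i : Fin r => (X i : MvPowerSeries (Fin r) 𝒪)) ≤
            RingHom.ker (constantCoeff (σ := Fin r) (R := 𝒪)) := by
          rw [Ideal.span_le]
          rintro _ ⟨i, rfl⟩
          simp [RingHom.mem_ker]
        exact hle (hc' j)
      simpa [h6] using h5
    intro a a' h
    have : evalMap R m (a - a') = 0 := by
      rw [evalMap_sub]
      exact sub_eq_zero.mpr h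
    exact sub_eq_zero.mp (key _ this)
  · intro x
    obtain ⟨y, rfl⟩ := L.π_surjective x
    obtain ⟨c, rfl⟩ := L.κ_surjective y
    exact ⟨fun j => constantCoeff (c j), (L.π_κ c).symm⟩

/-- Change of coordinates of a normalised level. -/
noncomputable def NormLevel.rebase {d d' : ℕ} {m : Fin d → M} {m' : Fin d' → M}
    {J : Ideal (MvPowerSeries (Fin r) 𝒪)} (L : NormLevel 𝒪 r R M d' m' J)
    (T : Matrix (Fin d) (Fin d') 𝒪) (T' : Matrix (Fin d') (Fin d) 𝒪)
    (hTT' : T * T' = 1) (hT'T : T' * T = 1) (hT : ∀ j, evalMap R m' (T j) = m j) :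
    NormLevel 𝒪 r R M d m J where
  N := L.N
  φ := L.φ
  ψ := L.ψ
  ψ_surjective := L.ψ_surjective
  ψ_φ_X := L.ψ_φ_X
  π := L.π
  π_smul := L.π_smul
  π_surjective := L.π_surjective
  ker_π := L.ker_π
  κ :=
    { toFun := fun c => L.κ (Matrix.vecMul c (T.map C))
      map_zero' := by rw [Matrix.zero_vecMul, map_zero]
      map_add' := fun c c' => by rw [Matrix.add_vecMul, map_add] }
  κ_smul a c := by
    show L.κ (Matrix.vecMul (a • c) (T.map C)) = L.φ a • L.κ (Matrix.vecMul c (T.map C))
    rw [Matrix.smul_vecMul, L.κ_smul]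
  κ_surjective y := by
    classical
    obtain ⟨c', rfl⟩ := L.κ_surjective y
    refine ⟨Matrix.vecMul c' (T'.map C), ?_⟩
    show L.κ (Matrix.vecMul (Matrix.vecMul c' (T'.map C)) (T.map C)) = _
    rw [Matrix.vecMul_vecMul, ← Matrix.map_mul, hT'T,
      Matrix.map_one _ (map_zero _) (map_one _), Matrix.vecMul_one]
  κ_ker c := by
    classical
    show L.κ (Matrix.vecMul c (T.map C)) = 0 ↔ _
    rw [L.κ_ker]
    constructor
    · intro h j
      have : c = Matrix.vecMul (Matrix.vecMul c (T.map C)) (T'.map C) := by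
        rw [Matrix.vecMul_vecMul, ← Matrix.map_mul, hTT',
          Matrix.map_one _ (map_zero _) (map_one _), Matrix.vecMul_one]
      rw [this]
      exact vecMul_mem_of_forall_mem h _ j
    · intro h k
      exact vecMul_mem_of_forall_mem h _ k
  π_κ c := by
    show L.π (L.κ (Matrix.vecMul c (T.map C))) = _
    rw [L.π_κ]
    have h1 : (fun k => constantCoeff (Matrix.vecMul c (T.map C) k)) =
        Matrix.vecMul (fun j => constantCoeff (c j)) T := by
      funext k
      simp [Matrix.vecMul, dotProduct, map_sum]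
    have h2 := evalMap_vecMul (R := R) m' (fun j => constantCoeff (c j)) T
    rw [← h1] at h2
    simp only [hT] at h2
    exact h2

theorem exists_rebase {d d' : ℕ} {m : Fin d → M} {m' : Fin d' → M}
    (hE : Function.Bijective (evalMap (𝒪 := 𝒪) R m))
    (hE' : Function.Bijective (evalMap (𝒪 := 𝒪) R m')) :
    ∃ (T : Matrix (Fin d) (Fin d') 𝒪) (T' : Matrix (Fin d') (Fin d) 𝒪),
      T * T' = 1 ∧ T' * T = 1 ∧ ∀ j, evalMap R m' (T j) = m j := by
  choose T hT using fun j => hE'.2 (m j)
  choose T' hT' using fun k => hE.2 (m' k)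
  refine ⟨Matrix.of T, Matrix.of T', ?_, ?_, hT⟩
  · ext j j'
    have : evalMap R m ((Matrix.of T * Matrix.of T') j) =
        evalMap R m ((1 : Matrix (Fin d) (Fin d) 𝒪) j) := by
      have e1 : ∀ k, evalMap R m (Matrix.of T' k) = m' k := hT'
      rw [Matrix.mul_apply_eq_vecMul, evalMap_vecMul, evalMap_one]
      simp only [e1]
      exact hT j
    exact congrFun (hE.1 this) j'
  · ext k k'
    have : evalMap R m' ((Matrix.of T' * Matrix.of T) k) =
        evalMap R m' ((1 : Matrix (Fin d') (Fin d') 𝒪) k) := by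
      have e1 : ∀ j, evalMap R m' (Matrix.of T j) = m j := hT
      rw [Matrix.mul_apply_eq_vecMul, evalMap_vecMul, evalMap_one]
      simp only [e1]
      exact hT' k
    exact congrFun (hE'.1 this) k'

end Norm

section Main

variable {𝒪 : Type} [CommRing 𝒪] [IsLocalRing 𝒪] [IsNoetherianRing 𝒪]
  [IsAdicComplete (maximalIdeal 𝒪) 𝒪] [Finite (ResidueField 𝒪)]
  {ℓ r : ℕ} {R : Type} [CommRing R] [Algebra 𝒪 R] {M : Type} [AddCommGroup M] [Module R M]

/-- **The patching lemma.** A Taylor–Wiles patching datum over a complete Noetherian local ring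
with finite residue field of residue characteristic `ℓ` yields a patching level with trivial
relation ideal. -/
theorem patching (hℓ : (ℓ : 𝒪) ∈ maximalIdeal 𝒪) (D : Algebra.PatchingDatum 𝒪 ℓ r R M) :
    Nonempty (Algebra.PatchingLevel 𝒪 r R M ⊥) := by
  classical
  have hJ0 : ∀ n, ∀ f ∈ twIdeal 𝒪 ℓ r n, constantCoeff f = 0 :=
    fun n f hf => constantCoeff_eq_zero_of_mem_twIdeal hf
  have hE : Function.Bijective
      (evalMap (𝒪 := 𝒪) R fun k => (D.level 0).π ((D.level 0).b k)) :=
    (NormLevel.ofPatchingLevel (D.level 0)).evalMap_bijective (hJ0 0)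
  have hLv : ∀ n, Nonempty (NormLevel 𝒪 r R M (D.level 0).d
      (fun k => (D.level 0).π ((D.level 0).b k)) (twIdeal 𝒪 ℓ r n)) := by
    intro n
    have hEn := (NormLevel.ofPatchingLevel (D.level n)).evalMap_bijective (hJ0 n)
    obtain ⟨T, T', h1, h2, h3⟩ := exists_rebase hE hEn
    exact ⟨(NormLevel.ofPatchingLevel (D.level n)).rebase T T' h1 h2 h3⟩
  letI : Algebra (MvPowerSeries (Fin r) 𝒪) R :=
    ((D.level 0).ψ : MvPowerSeries (Fin r) 𝒪 →+* R).toAlgebra
  letI : Module (MvPowerSeries (Fin r) 𝒪) M :=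
    Module.compHom M ((D.level 0).ψ : MvPowerSeries (Fin r) 𝒪 →+* R)
  haveI : IsScalarTower (MvPowerSeries (Fin r) 𝒪) R M := ⟨fun a s x => by
    show ((D.level 0).ψ a * s) • x = (D.level 0).ψ a • (s • x)
    rw [mul_smul]⟩
  let F : Family 𝒪 r R M (D.level 0).d (fun k => (D.level 0).π ((D.level 0).b k)) :=
    { J := fun n => twIdeal 𝒪 ℓ r n
      Lv := fun n => (hLv n).some
      𝒰 := Filter.hyperfilter ℕ
      hJ := fun K => by
        have h1 : ∀ᶠ n in (Filter.atTop : Filter ℕ),
            twIdeal 𝒪 ℓ r n ≤ maximalIdeal (MvPowerSeries (Fin r) 𝒪) ^ K := by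
          filter_upwards [Filter.eventually_ge_atTop K] with n hn
          exact (twIdeal_le hℓ n).trans (Ideal.pow_le_pow_right (by omega))
        rw [← Nat.cofinite_eq_atTop] at h1
        exact Filter.hyperfilter_le_cofinite h1
      hsurj := (D.level 0).ψ_surjective
      hC := fun a => (D.level 0).ψ.commutes a
      hE := hE }
  exact ⟨F.patchedLevel⟩

end Main

/-- **Patching, with the conclusion of the frozen statement S57.** -/
theorem patching_free {𝒪 : Type} [CommRing 𝒪] [IsDomain 𝒪] [IsDiscreteValuationRing 𝒪]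
    [IsAdicComplete (maximalIdeal 𝒪) 𝒪] [Finite (ResidueField 𝒪)]
    {ℓ r : ℕ} {R : Type} [CommRing R] [Algebra 𝒪 R] {M : Type} [AddCommGroup M] [Module R M]
    [Nontrivial M] (hℓ : (ℓ : 𝒪) ∈ maximalIdeal 𝒪)
    (D : Algebra.PatchingDatum 𝒪 ℓ r R M) :
    Module.Free R M ∧ Module.annihilator R M = ⊥ ∧
      ∃ L : Algebra.PatchingLevel 𝒪 r R M ⊥,
        RingHom.ker (L.ψ : MvPowerSeries (Fin r) 𝒪 →+* R) =
          Ideal.span (Set.range fun i : Fin r => L.φ (X i)) := by
  obtain ⟨L⟩ := patching hℓ D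
  obtain ⟨h1, h2, h3⟩ := Fermat.Agent.S57.result L
  exact ⟨h1, h2, L, h3⟩

end Fermat.Agent.S59.H607
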